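-- S19 project, package Alg/HFour (helper227): verbatim copy of Fermat/Agent/S55/Bridge/Defs.lean
-- (merged CFT-P6 wave 1 on origin/helper53, commit 5bce6be8c), with the namespace renamed to
-- Fermat.Agent.S19.HFour227.Br so that the S19 tree does not depend on the S55 tree.
/-
S55 / CFT project, package P6 BRIDGE: shared definitions (FROZEN once published; lead helper53).
Dictionary between the frozen objects of the statement (the abstract group `Gal(Qbar/Q)`, the local
groups `Gal(PadicAlgCl q / Q_q)`, valuation subrings of `Qbar`) and fields.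
DEFINITIONS ONLY.
-/
import Mathlib
import Fermat.Prelude.Def_GroupCohomology_ContinuousUnramified

set_option autoImplicit false

namespace Fermat.Agent.S19.HFour227.Br

/-- The algebraic closure of `ℚ` used by the frozen statement. -/
abbrev Qbar : Type := AlgebraicClosure ℚ

/-- The absolute Galois group of `ℚ`, as an abstract group. -/
abbrev GQ : Type := AlgebraicClosure ℚ ≃ₐ[ℚ] AlgebraicClosure ℚ

/-- The local Galois group at `q` (it is `ExtCitation.primeLocalGaloisGroup`). -/
abbrev Gq (q : ℕ) [Fact q.Prime] : Type := PadicAlgCl q ≃ₐ[ℚ_[q]] PadicAlgCl q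

variable (q : ℕ) [Fact q.Prime]

/-- The embedding `x ↦ ι (s x)` of `Qbar` into `PadicAlgCl q` attached to `s ∈ GQ`
(`ι = padicEmbedding q`).  The places of a number field `F ⊆ Qbar` above `q` are the
restrictions to `F` of these embeddings, up to the action of `Gq q` on the target. -/
noncomputable def emb (s : GQ) : Qbar →ₐ[ℚ] PadicAlgCl q :=
  (padicEmbedding q).comp (s : Qbar →ₐ[ℚ] Qbar)

theorem emb_apply (s : GQ) (x : Qbar) : emb q s x = padicEmbedding q (s x) := rfl

/-- The completion of the number field `F ⊆ Qbar` at the place above `q` given by `emb q s`,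
realised inside `PadicAlgCl q` as the compositum `ℚ_q · ι (s F)`. -/
noncomputable def localField (F : IntermediateField ℚ Qbar) (s : GQ) :
    IntermediateField ℚ_[q] (PadicAlgCl q) :=
  IntermediateField.adjoin ℚ_[q] (emb q s '' (F : Set Qbar))

/-- The inertia subgroup of the local Galois group. -/
noncomputable def localInertia : Subgroup (Gq q) where
  carrier := {τ | ∀ x : PadicAlgCl q, ‖x‖ ≤ 1 → ‖τ x - x‖ < 1}
  mul_mem' := by
    intro a b ha hb x hx
    have h1 : ‖b x‖ ≤ 1 := by
      have := nnnorm_padicAlgCl_algEquiv q b x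
      have h2 : ‖b x‖ = ‖x‖ := congrArg NNReal.toReal this
      rw [h2]; exact hx
    have h2 : (a * b) x - x = (a (b x) - b x) + (b x - x) := by
      rw [AlgEquiv.mul_apply]; ring
    rw [h2]
    exact lt_of_le_of_lt (PadicAlgCl.isNonarchimedean q _ _) (max_lt (ha _ h1) (hb _ hx))
  one_mem' := by
    intro x _
    simp
  inv_mem' := by
    intro a ha x hx
    have h1 : ‖a⁻¹ x‖ ≤ 1 := by
      have := nnnorm_padicAlgCl_algEquiv q a⁻¹ x
      have h2 : ‖a⁻¹ x‖ = ‖x‖ := congrArg NNReal.toReal this
      rw [h2]; exact hx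
    have h3 := ha _ h1
    have h4 : a (a⁻¹ x) = x := by
      rw [← AlgEquiv.mul_apply, mul_inv_cancel, AlgEquiv.one_apply]
    rw [h4] at h3
    rw [← norm_neg, neg_sub]
    exact h3

theorem mem_localInertia_iff (τ : Gq q) :
    τ ∈ localInertia q ↔ ∀ x : PadicAlgCl q, ‖x‖ ≤ 1 → ‖τ x - x‖ < 1 := Iff.rfl

/-- A finite extension `E` of `ℚ_q` inside `PadicAlgCl q` is unramified: its value group is `q ^ ℤ`. -/
def IsUnramifiedLocal (E : IntermediateField ℚ_[q] (PadicAlgCl q)) : Prop :=
  ∀ x ∈ E, x ≠ 0 → ∃ n : ℤ, ‖x‖ = (q : ℝ) ^ n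

/-- The number field `F ⊆ Qbar` is unramified at every place above `q`, in local terms. -/
def IsUnramifiedAt (F : IntermediateField ℚ Qbar) : Prop :=
  ∀ s : GQ, IsUnramifiedLocal q (localField q F s)

end Fermat.Agent.S19.HFour227.Br
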