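-- S19 project, package Alg/HFour (helper227): verbatim copy of Fermat/Agent/S55/Bridge/Krasner.lean
-- (merged CFT-P6 wave 1 on origin/helper53, commit 5bce6be8c), with the namespace renamed to
-- Fermat.Agent.S19.HFour227.Br so that the S19 tree does not depend on the S55 tree.
/-
S55 / CFT, package P6 BRIDGE, file BK (Krasner).  STATEMENTS ARE FROZEN (interface).
All statements below are proved (helper113).  Helper lemmas live in THIS file, inside
`namespace Fermat.Agent.S19.HFour227.Br`, with names prefixed `bk_` (fresh names).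

Math.  `ι = padicEmbedding q : Qbar → PadicAlgCl q`.
* density: for `y` with minimal polynomial `f` over `ℚ_q`, approximate the coefficients of `f` by
  rationals to get a monic `g ∈ ℚ[X]` of the same degree; `∏ (y - β_i) = g(y) = g(y) - f(y)` is
  small, so some root `β_i` of `g` is close to `y`; the roots of `g` in `PadicAlgCl q` are in the
  range of `ι` (`Qbar` is algebraically closed).
* `exists_localField_eq`: `E = ℚ_q(y)` (primitive element); take `x` as above so close to `y` that
  Krasner (`IsKrasner.krasner`, instance `IsKrasner.of_completeSpace`) gives `y ∈ ℚ_q(ι x)`;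
  degrees (`deg g = deg f`) give equality.
* injectivity: an automorphism fixing the range of `ι` fixes every `ℚ_q(ι x)`, hence everything.
-/
import Fermat.Agent.S19.HFour227.Br.Defs

set_option autoImplicit false

namespace Fermat.Agent.S19.HFour227.Br

variable (q : ℕ) [Fact q.Prime]

open Polynomial IntermediateField

/-- Ring homomorphisms out of `ℚ` into `PadicAlgCl q` agree. -/
theorem bk_ringHom_rat (f g : ℚ →+* PadicAlgCl q) : f = g := Subsingleton.elim _ _

/-- Refined density: every `y` is approximated by `ι x`, `x` a root of a monic rational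
polynomial of the same degree as the minimal polynomial of `y` over `ℚ_q`. -/
theorem bk_approx (y : PadicAlgCl q) {ε : ℝ} (hε : 0 < ε) :
    ∃ (g : Polynomial ℚ) (x : Qbar), g.Monic ∧ g.natDegree = (minpoly ℚ_[q] y).natDegree ∧
      Polynomial.aeval x g = 0 ∧ ‖y - padicEmbedding q x‖ < ε := by
  have hy : IsIntegral ℚ_[q] y := Algebra.IsIntegral.isIntegral y
  have fmon : (minpoly ℚ_[q] y).Monic := minpoly.monic hy
  have fa0 : Polynomial.aeval y (minpoly ℚ_[q] y) = 0 := minpoly.aeval _ _
  have fnatdeg0 : (minpoly ℚ_[q] y).natDegree ≠ 0 := (minpoly.natDegree_pos hy).ne'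
  set n := (minpoly ℚ_[q] y).natDegree with hn
  have hM : 0 < max ‖y‖ 1 := lt_of_lt_of_le one_pos (le_max_right _ _)
  have hε' : (ε / (max ‖y‖ 1)) ^ n / (n + 1) > 0 := by positivity
  have hd : DenseRange (algebraMap ℚ ℚ_[q]) := by
    have h := Padic.denseRange_ratCast q
    have he : (algebraMap ℚ ℚ_[q] : ℚ → ℚ_[q]) = ((↑) : ℚ → ℚ_[q]) := by
      funext r
      exact eq_ratCast _ r
    rw [he]
    exact h
  obtain ⟨g, gmon, gdeg, gcoeff⟩ :=
    Polynomial.exists_monic_and_natDegree_eq_and_norm_map_algebraMap_coeff_sub_lt hd fmon hε'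
  have hsplit : ((g.map (algebraMap ℚ ℚ_[q])).map (algebraMap ℚ_[q] (PadicAlgCl q))).Splits :=
    IsAlgClosed.splits _
  obtain ⟨b, hb, hab⟩ := Polynomial.exists_aroots_norm_sub_lt_of_norm_coeff_sub_lt
    hε' fa0 fmon (gmon.map _) (by rw [Polynomial.natDegree_map]; exact gdeg.symm) gcoeff hsplit
  have hab' : ‖y - b‖ < ε := by
    have h1 : ((n : ℝ) + 1) * ((ε / (max ‖y‖ 1)) ^ n / (n + 1)) = (ε / (max ‖y‖ 1)) ^ n := by
      field_simp
    rw [h1, Real.pow_rpow_inv_natCast (div_pos hε hM).le fnatdeg0, div_mul_cancel₀ _ hM.ne'] at hab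
    exact hab
  -- `b` is a root of `g` in `PadicAlgCl q`
  have hb0 : Polynomial.aeval b g = 0 := by
    have h2 := (Polynomial.mem_aroots.mp hb).2
    rwa [Polynomial.aeval_map_algebraMap] at h2
  have hgne : g.map (algebraMap ℚ (PadicAlgCl q)) ≠ 0 := (gmon.map _).ne_zero
  have hbroot : b ∈ (g.map (algebraMap ℚ (PadicAlgCl q))).roots := by
    rw [Polynomial.mem_roots hgne, Polynomial.IsRoot.def, Polynomial.eval_map_algebraMap]
    exact hb0
  have hsplitQ : (g.map (algebraMap ℚ Qbar)).Splits := IsAlgClosed.splits _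
  have hmap : (g.map (algebraMap ℚ Qbar)).map ((padicEmbedding q : Qbar →ₐ[ℚ] PadicAlgCl q) :
      Qbar →+* PadicAlgCl q) = g.map (algebraMap ℚ (PadicAlgCl q)) := by
    rw [Polynomial.map_map]
    congr 1
    exact bk_ringHom_rat q _ _
  rw [← hmap, Polynomial.Splits.roots_map hsplitQ, Multiset.mem_map] at hbroot
  obtain ⟨x, hx, hxb⟩ := hbroot
  refine ⟨g, x, gmon, gdeg.symm, ?_, ?_⟩
  · have h3 := (Polynomial.mem_roots'.mp hx).2
    rwa [Polynomial.IsRoot.def, Polynomial.eval_map_algebraMap] at h3
  · have : padicEmbedding q x = b := hxb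
    rw [this]
    exact hab'

/-- BK1. The image of `Qbar` is dense in `PadicAlgCl q`. -/
theorem denseRange_padicEmbedding : DenseRange (padicEmbedding q) := by
  intro y
  rw [Metric.mem_closure_range_iff]
  intro ε hε
  obtain ⟨g, x, -, -, -, hx⟩ := bk_approx q y hε
  exact ⟨x, by rw [dist_eq_norm]; exact hx⟩

/-- The local field of a simple extension is simple. -/
theorem bk_localField_adjoin_simple (x : Qbar) (s : GQ) :
    localField q (ℚ⟮x⟯) s = ℚ_[q]⟮emb q s x⟯ := by
  apply le_antisymm
  · rw [localField, IntermediateField.adjoin_le_iff]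
    rintro _ ⟨z, hz, rfl⟩
    -- the preimage of `ℚ_q(emb x)` is an intermediate field of `Qbar / ℚ` containing `x`
    have hle : ℚ⟮x⟯ ≤ (ℚ_[q]⟮emb q s x⟯.restrictScalars ℚ).comap (emb q s) := by
      rw [IntermediateField.adjoin_simple_le_iff]
      show emb q s x ∈ ℚ_[q]⟮emb q s x⟯
      exact IntermediateField.mem_adjoin_simple_self _ _
    exact hle hz
  · rw [IntermediateField.adjoin_simple_le_iff]
    exact IntermediateField.subset_adjoin _ _ ⟨x, IntermediateField.mem_adjoin_simple_self _ _, rfl⟩

/-- BK2. The completion of a number field is a finite extension of `ℚ_q`. -/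
theorem finiteDimensional_localField (F : IntermediateField ℚ Qbar) [FiniteDimensional ℚ F]
    (s : GQ) : FiniteDimensional ℚ_[q] (localField q F s) := by
  obtain ⟨α, hα⟩ := Field.exists_primitive_element ℚ F
  have hF : F = ℚ⟮(α : Qbar)⟯ := by
    have h1 : IntermediateField.lift (F := F) (IntermediateField.adjoin ℚ {α}) =
        IntermediateField.lift (F := F) ⊤ := congrArg (IntermediateField.lift (F := F)) hα
    exact ((IntermediateField.lift_adjoin_simple ℚ F α).symm.trans
      (h1.trans (IntermediateField.lift_top ℚ F))).symm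
  rw [hF, bk_localField_adjoin_simple]
  exact IntermediateField.adjoin.finiteDimensional (Algebra.IsIntegral.isIntegral _)

/-- BK3. Every finite extension of `ℚ_q` inside `PadicAlgCl q` is the completion of a number
field (at the place given by `ι` itself). -/
theorem exists_localField_eq (E : IntermediateField ℚ_[q] (PadicAlgCl q))
    [FiniteDimensional ℚ_[q] E] :
    ∃ F : IntermediateField ℚ Qbar, FiniteDimensional ℚ F ∧ localField q F 1 = E := by
  classical
  obtain ⟨α, hα⟩ := Field.exists_primitive_element ℚ_[q] E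
  have hE : E = ℚ_[q]⟮(α : PadicAlgCl q)⟯ := by
    have h1 := congrArg (IntermediateField.lift (F := E)) hα
    rw [IntermediateField.lift_adjoin_simple, IntermediateField.lift_top] at h1
    exact h1.symm
  set y : PadicAlgCl q := (α : PadicAlgCl q) with hy
  have hyint : IsIntegral ℚ_[q] y := Algebra.IsIntegral.isIntegral y
  -- distance to the other conjugates
  let S : Finset (PadicAlgCl q) := {z ∈ ((minpoly ℚ_[q] y).rootSet (PadicAlgCl q)).toFinset | z ≠ y}
  let δ : ℝ := if hS : S.Nonempty then Finset.min' (S.image fun z => ‖y - z‖)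
      (Finset.image_nonempty.mpr hS) else 1
  have norm_sub_le : ∀ y' : PadicAlgCl q, IsConjRoot ℚ_[q] y y' → y ≠ y' → δ ≤ ‖y - y'‖ := by
    intro y' conj ne
    by_cases hS : S.Nonempty <;> simp only [hS, ↓reduceDIte, δ]
    · apply Finset.min'_le (S.image fun z => ‖y - z‖) (‖y - y'‖)
      apply Finset.mem_image_of_mem
      simp only [Finset.mem_filter, Set.mem_toFinset, S]
      rw [← (isConjRoot_iff_mem_minpoly_rootSet hyint)]
      exact ⟨conj, ne.symm⟩
    · simp only [ne_eq, Finset.not_nonempty_iff_eq_empty, Finset.filter_eq_empty_iff,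
        Set.mem_toFinset, not_not, S] at hS
      rw [isConjRoot_iff_mem_minpoly_rootSet hyint] at conj
      exact (ne (hS conj).symm).elim
  have δpos : 0 < δ := by
    by_cases hS : S.Nonempty <;> simp only [hS, ↓reduceDIte, δ]
    · simp only [Finset.lt_min'_iff, Finset.mem_image, forall_exists_index, and_imp,
        forall_apply_eq_imp_iff₂]
      rintro z hz
      simp only [Finset.mem_filter, Set.mem_toFinset, S] at hz
      rw [norm_pos_iff, sub_ne_zero]
      exact hz.2.symm
    · exact one_pos
  obtain ⟨g, x, gmon, gdeg, hgx, hxy⟩ := bk_approx q y δpos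
  have hxint : IsIntegral ℚ x := ⟨g, gmon, hgx⟩
  refine ⟨ℚ⟮x⟯, IntermediateField.adjoin.finiteDimensional hxint, ?_⟩
  rw [bk_localField_adjoin_simple, hE]
  have hemb : emb q 1 x = padicEmbedding q x := rfl
  rw [hemb]
  have hιint : IsIntegral ℚ_[q] (padicEmbedding q x) := Algebra.IsIntegral.isIntegral _
  have hle : ℚ_[q]⟮y⟯ ≤ ℚ_[q]⟮padicEmbedding q x⟯ := by
    rw [IntermediateField.adjoin_simple_le_iff]
    exact IsKrasner.krasner (minpoly.irreducible hyint).separable (IsAlgClosed.splits _) hιint
      fun y' h1 h2 => lt_of_lt_of_le hxy (norm_sub_le y' h1 h2)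
  have : FiniteDimensional ℚ_[q] ℚ_[q]⟮padicEmbedding q x⟯ :=
    IntermediateField.adjoin.finiteDimensional hιint
  refine (IntermediateField.eq_of_le_of_finrank_le hle ?_).symm
  rw [IntermediateField.adjoin.finrank hιint, IntermediateField.adjoin.finrank hyint, ← gdeg]
  -- the minimal polynomial of `ι x` over `ℚ_q` divides `g`
  have h0 : Polynomial.aeval (padicEmbedding q x) (g.map (algebraMap ℚ ℚ_[q])) = 0 := by
    rw [Polynomial.aeval_map_algebraMap, Polynomial.aeval_algHom_apply, hgx, map_zero]
  have h1 := Polynomial.natDegree_le_of_dvd (minpoly.dvd ℚ_[q] _ h0) (gmon.map _).ne_zero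
  rwa [Polynomial.natDegree_map] at h1

/-- BK4. The local Galois group embeds into the global one. -/
theorem localGaloisToGlobal_injective : Function.Injective (localGaloisToGlobal q) := by
  rw [injective_iff_map_eq_one]
  intro τ hτ
  have hfix : ∀ x : Qbar, τ (padicEmbedding q x) = padicEmbedding q x := by
    intro x
    rw [← padicEmbedding_localGaloisToGlobal, hτ, AlgEquiv.one_apply]
  have hiso : Isometry (τ : PadicAlgCl q → PadicAlgCl q) :=
    AddMonoidHomClass.isometry_of_norm τ fun y => congrArg NNReal.toReal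
      (nnnorm_padicAlgCl_algEquiv q τ y)
  have heq : (τ : PadicAlgCl q → PadicAlgCl q) = id :=
    (denseRange_padicEmbedding q).equalizer hiso.continuous continuous_id (funext hfix)
  ext y
  exact congrFun heq y

end Fermat.Agent.S19.HFour227.Br
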