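-- S19 project, package Alg/HFour (helper227): verbatim copy of Fermat/Agent/S55/Bridge/Fixing.lean
-- (merged CFT-P6 wave 1 on origin/helper53, commit 5bce6be8c), with the namespace renamed to
-- Fermat.Agent.S19.HFour227.Br so that the S19 tree does not depend on the S55 tree.
/-
S55 / CFT, package P6 BRIDGE, file BF (fixing subgroups and level structures).
STATEMENTS ARE FROZEN (interface).  (All proofs are complete.)  Helper lemmas: add them in
THIS file, inside `namespace Fermat.Agent.S19.HFour227.Br`, with names prefixed `bf_` (fresh names).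
You may use the statements of `Krasner.lean` (imported).
-/
import Fermat.Agent.S19.HFour227.Br.Defs
import Fermat.Agent.S19.HFour227.Br.Krasner

set_option autoImplicit false

namespace Fermat.Agent.S19.HFour227.Br

variable (q : ℕ) [Fact q.Prime]

/-- BF1. Compatibility of `emb` with the local Galois action. -/
theorem emb_localGaloisToGlobal_mul (τ : Gq q) (s : GQ) (x : Qbar) :
    emb q (localGaloisToGlobal q τ * s) x = τ (emb q s x) := by
  rw [emb_apply, emb_apply, AlgEquiv.mul_apply, padicEmbedding_localGaloisToGlobal]

/-- An element of the local Galois group fixes `emb q s x` iff its global image fixes `s x`. -/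
theorem bf_fix_emb_iff (s : GQ) (τ : Gq q) (x : Qbar) :
    τ (emb q s x) = emb q s x ↔ localGaloisToGlobal q τ (s x) = s x := by
  rw [emb_apply, ← padicEmbedding_localGaloisToGlobal]
  constructor
  · intro h
    exact (padicEmbedding q).toRingHom.injective h
  · intro h
    rw [h]

/-- The conjugate `s⁻¹ σ s` fixes `x` iff `σ` fixes `s x`. -/
theorem bf_conj_fix_iff (s σ : GQ) (x : Qbar) :
    (s⁻¹ * σ * s) x = x ↔ σ (s x) = s x := by
  have h0 : (s⁻¹ * σ * s) x = s.symm (σ (s x)) := rfl
  rw [h0]
  constructor
  · intro h
    have h1 := congrArg s h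
    rwa [AlgEquiv.apply_symm_apply] at h1
  · intro h
    rw [h, AlgEquiv.symm_apply_apply]

/-- BF2. The subgroup of the local Galois group attached to the completion of `F` at `emb q s`. -/
theorem mem_fixingSubgroup_localField_iff (F : IntermediateField ℚ Qbar) (s : GQ) (τ : Gq q) :
    τ ∈ (localField q F s).fixingSubgroup ↔
      s⁻¹ * localGaloisToGlobal q τ * s ∈ F.fixingSubgroup := by
  rw [IntermediateField.mem_fixingSubgroup_iff, IntermediateField.mem_fixingSubgroup_iff]
  constructor
  · intro h x hx
    rw [bf_conj_fix_iff, ← bf_fix_emb_iff]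
    exact h _ (IntermediateField.subset_adjoin _ _ ⟨x, hx, rfl⟩)
  · intro h y hy
    unfold localField at hy
    induction hy using IntermediateField.adjoin_induction with
    | mem y hy =>
      obtain ⟨x, hx, rfl⟩ := hy
      rw [bf_fix_emb_iff, ← bf_conj_fix_iff]
      exact h x hx
    | algebraMap r => exact τ.commutes r
    | add x y _ _ hx hy => rw [map_add, hx, hy]
    | inv x _ hx => rw [map_inv₀, hx]
    | mul x y _ _ hx hy => rw [map_mul, hx, hy]

/-- BF3. Monotonicity. -/
theorem localField_mono {F F' : IntermediateField ℚ Qbar} (h : F ≤ F') (s : GQ) :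
    localField q F s ≤ localField q F' s := by
  unfold localField
  exact IntermediateField.adjoin.mono _ _ _ (Set.image_mono h)

/-- BF4. Completion of a compositum. -/
theorem localField_sup (F F' : IntermediateField ℚ Qbar) (s : GQ) :
    localField q (F ⊔ F') s = localField q F s ⊔ localField q F' s := by
  apply le_antisymm
  · unfold localField
    rw [IntermediateField.adjoin_le_iff]
    rintro _ ⟨x, hx, rfl⟩
    have hx' : x ∈ IntermediateField.adjoin ℚ ((F : Set Qbar) ∪ (F' : Set Qbar)) := hx
    induction hx' using IntermediateField.adjoin_induction with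
    | mem y hy =>
      rcases hy with hy | hy
      · exact (le_sup_left : IntermediateField.adjoin ℚ_[q] (emb q s '' (F : Set Qbar)) ≤ _)
          (IntermediateField.subset_adjoin _ _ ⟨y, hy, rfl⟩)
      · exact (le_sup_right : IntermediateField.adjoin ℚ_[q] (emb q s '' (F' : Set Qbar)) ≤ _)
          (IntermediateField.subset_adjoin _ _ ⟨y, hy, rfl⟩)
    | algebraMap r =>
      rw [AlgHom.commutes]
      have h1 : algebraMap ℚ (PadicAlgCl q) r =
          algebraMap ℚ_[q] (PadicAlgCl q) (algebraMap ℚ ℚ_[q] r) := by
        simp
      rw [h1]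
      exact IntermediateField.algebraMap_mem _ _
    | add u v _ _ hu hv => rw [map_add]; exact add_mem (hu (by assumption)) (hv (by assumption))
    | inv u _ hu => rw [map_inv₀]; exact inv_mem (hu (by assumption))
    | mul u v _ _ hu hv => rw [map_mul]; exact mul_mem (hu (by assumption)) (hv (by assumption))
  · exact sup_le (localField_mono q le_sup_left s) (localField_mono q le_sup_right s)

/-- BF5. Changing `s` by a local Galois element gives the conjugate field. -/
theorem localField_localGaloisToGlobal_mul (F : IntermediateField ℚ Qbar) (τ : Gq q) (s : GQ) :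
    localField q F (localGaloisToGlobal q τ * s) = (localField q F s).map (τ : PadicAlgCl q →ₐ[ℚ_[q]] PadicAlgCl q) := by
  unfold localField
  rw [IntermediateField.adjoin_map, Set.image_image]
  congr 1
  apply Set.image_congr
  intro x _
  exact emb_localGaloisToGlobal_mul q τ s x

/-- BF6. Changing `s` by an element fixing `F` does not change the completion. -/
theorem localField_mul_of_mem_fixingSubgroup (F : IntermediateField ℚ Qbar) (s u : GQ)
    (hu : u ∈ F.fixingSubgroup) : localField q F (s * u) = localField q F s := by
  unfold localField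
  congr 1
  apply Set.image_congr
  intro x hx
  rw [emb_apply, emb_apply, AlgEquiv.mul_apply,
    (IntermediateField.mem_fixingSubgroup_iff F u).mp hu x hx]

/-- The global image of `τ` fixes `F` iff `τ` fixes the completion of `F` at the place `ι`. -/
theorem bf_mem_fixingSubgroup_iff_one (F : IntermediateField ℚ Qbar) (τ : Gq q) :
    localGaloisToGlobal q τ ∈ F.fixingSubgroup ↔ τ ∈ (localField q F 1).fixingSubgroup := by
  rw [mem_fixingSubgroup_localField_iff, inv_one, one_mul, mul_one]

/-- BF7. The level structure pulled back to the local Galois group is the Krull one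
(degree-1 cochains). -/
theorem isLevelConstant₁_local_iff {X : Type*} (f : Gq q → X) :
    groupCohomology.IsLevelConstant₁ (localGaloisToGlobal q) f ↔
      ∃ E : IntermediateField ℚ_[q] (PadicAlgCl q), FiniteDimensional ℚ_[q] E ∧
        ∀ g s : Gq q, s ∈ E.fixingSubgroup → f (g * s) = f g := by
  constructor
  · rintro ⟨F, hF, h⟩
    have := hF
    refine ⟨localField q F 1, finiteDimensional_localField q F 1, fun g s hs => ?_⟩
    exact h g s ((bf_mem_fixingSubgroup_iff_one q F s).mpr hs)
  · rintro ⟨E, hE, h⟩
    have := hE
    obtain ⟨F, hF, rfl⟩ := exists_localField_eq q E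
    refine ⟨F, hF, fun g s hs => ?_⟩
    exact h g s ((bf_mem_fixingSubgroup_iff_one q F s).mp hs)

/-- BF8. The level structure pulled back to the local Galois group is the Krull one
(degree-2 cochains). -/
theorem isLevelConstant₂_local_iff {X : Type*} (f : Gq q × Gq q → X) :
    groupCohomology.IsLevelConstant₂ (localGaloisToGlobal q) f ↔
      ∃ E : IntermediateField ℚ_[q] (PadicAlgCl q), FiniteDimensional ℚ_[q] E ∧
        ∀ g g' s s' : Gq q, s ∈ E.fixingSubgroup → s' ∈ E.fixingSubgroup →
          f (g * s, g' * s') = f (g, g') := by
  constructor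
  · rintro ⟨F, hF, h⟩
    have := hF
    refine ⟨localField q F 1, finiteDimensional_localField q F 1, fun g g' s s' hs hs' => ?_⟩
    exact h g g' s s' ((bf_mem_fixingSubgroup_iff_one q F s).mpr hs)
      ((bf_mem_fixingSubgroup_iff_one q F s').mpr hs')
  · rintro ⟨E, hE, h⟩
    have := hE
    obtain ⟨F, hF, rfl⟩ := exists_localField_eq q E
    refine ⟨F, hF, fun g g' s s' hs hs' => ?_⟩
    exact h g g' s s' ((bf_mem_fixingSubgroup_iff_one q F s).mp hs)
      ((bf_mem_fixingSubgroup_iff_one q F s').mp hs')

end Fermat.Agent.S19.HFour227.Br
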