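-- S19 project, package Alg/HFour (helper227): verbatim copy of Fermat/Agent/S55/Bridge/Decomp.lean
-- (merged CFT-P6 wave 1 on origin/helper53, commit 5bce6be8c), with the namespace renamed to
-- Fermat.Agent.S19.HFour227.Br so that the S19 tree does not depend on the S55 tree.
/-
S55 / CFT, package P6 BRIDGE, file BD (decomposition group = image of the local Galois group).
STATEMENTS ARE FROZEN (interface).  STATUS: BD1-BD4 all proved here (helper275); helper lemmas are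
prefixed `bd_`.  BD2 uses the statement BK3 `exists_localField_eq` of `Krasner.lean` (nothing else
from `Krasner.lean`/`Fixing.lean`).  Proof of BD2: the two `ℚ_q`-algebra maps
`ℚ_q ⊗ Qbar → PadicAlgCl q` given by `ι` and `ι ∘ σ` have nested kernels (density of `ℚ` in `ℚ_q`
and BD1), the first is onto (BK3), so `ι ∘ σ` factors as `τ ∘ ι` with `τ` a `ℚ_q`-automorphism.

Math.  `A = padicPlace q = {x : ‖ι x‖ ≤ 1}`, `D = A.decompositionSubgroup ℚ = {σ : σ • A = A}`.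
* BD1: if `σ • A = A` then `x ↦ ‖ι (σ x)‖` and `x ↦ ‖ι x‖` are two absolute values on `Qbar` with the
  same valuation ring, both restricting to the `q`-adic one on `ℚ`; on a number field
  (or using: `‖ι x‖ ≤ 1 ↔ ‖ι (σ x)‖ ≤ 1` applied to `x ^ a / q ^ b`) they coincide.
* BD2 (⊇; `⊆` is `localGaloisToGlobal_mem_decompositionSubgroup` in the Prelude): `σ ∈ D` is an
  isometry of `(Qbar, ‖ι ·‖)`; `ι (Qbar)` is dense in `PadicAlgCl q` (BK1), and on each finite
  extension `E = ℚ_q (ι F)` (`F/ℚ` finite normal, complete since finite dimensional over `ℚ_q`)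
  `ι F` is dense, so `σ` extends uniquely to an isometric ring automorphism of `E` fixing `ℚ_q`;
  glue (or use `IsAlgClosed.lift`/`AlgEquiv.ofBijective` on the union).
-/
import Fermat.Agent.S19.HFour227.Br.Defs
import Fermat.Agent.S19.HFour227.Br.Krasner
import Fermat.Agent.S19.HFour227.Br.Fixing

set_option autoImplicit false

open scoped Pointwise TensorProduct

namespace Fermat.Agent.S19.HFour227.Br

variable (q : ℕ) [Fact q.Prime]

theorem bd_norm_natCast_q : ‖(q : PadicAlgCl q)‖ = (q : ℝ)⁻¹ := by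
  rw [← PadicAlgCl.valuation_coe, PadicAlgCl.valuation_p]
  simp

theorem bd_not_lt (f g : Qbar →+* PadicAlgCl q)
    (h : ∀ x, ‖f x‖ ≤ 1 → ‖g x‖ ≤ 1) (x : Qbar) (hx : x ≠ 0) : ¬ (‖f x‖ < ‖g x‖) := by
  intro hlt
  have hq1 : (1 : ℝ) < (q : ℝ) := by exact_mod_cast (Fact.out : q.Prime).one_lt
  have hq0 : (0 : ℝ) < (q : ℝ) := by linarith
  have hV0 : 0 < ‖f x‖ := norm_pos_iff.mpr ((map_ne_zero f).mpr hx)
  have ht : 1 < ‖g x‖ / ‖f x‖ := by rw [one_lt_div hV0]; exact hlt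
  obtain ⟨a, ha⟩ := pow_unbounded_of_one_lt (q : ℝ) ht
  have hV : 0 < ‖f x‖ ^ a := pow_pos hV0 a
  obtain ⟨n, hn1, hn2⟩ := exists_mem_Ico_zpow (x := (‖f x‖ ^ a)⁻¹) (y := (q : ℝ)) (inv_pos.mpr hV) hq1
  have hqQ : (q : Qbar) ≠ 0 := by exact_mod_cast (Fact.out : q.Prime).ne_zero
  set u : Qbar := x ^ a * ((q : Qbar)⁻¹) ^ n with hu
  have hfq : ‖f ((q : Qbar)⁻¹)‖ = (q : ℝ) := by
    rw [map_inv₀, map_natCast, norm_inv, bd_norm_natCast_q, inv_inv]
  have hgq : ‖g ((q : Qbar)⁻¹)‖ = (q : ℝ) := by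
    rw [map_inv₀, map_natCast, norm_inv, bd_norm_natCast_q, inv_inv]
  have hfu : ‖f u‖ = ‖f x‖ ^ a * (q : ℝ) ^ n := by
    rw [hu, map_mul, map_pow, map_zpow₀, norm_mul, norm_pow, norm_zpow, hfq]
  have hgu : ‖g u‖ = ‖g x‖ ^ a * (q : ℝ) ^ n := by
    rw [hu, map_mul, map_pow, map_zpow₀, norm_mul, norm_pow, norm_zpow, hgq]
  have h1 : ‖f u‖ ≤ 1 := by
    rw [hfu]
    calc ‖f x‖ ^ a * (q : ℝ) ^ n ≤ ‖f x‖ ^ a * (‖f x‖ ^ a)⁻¹ :=
          mul_le_mul_of_nonneg_left hn1 hV.le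
      _ = 1 := mul_inv_cancel₀ hV.ne'
  have h2 : 1 < ‖g u‖ := by
    rw [hgu]
    have hqn : 0 < (q : ℝ) ^ n := zpow_pos hq0 n
    have h3 : (q : ℝ) * ‖f x‖ ^ a < ‖g x‖ ^ a := by
      have : ‖g x‖ ^ a = (‖g x‖ / ‖f x‖) ^ a * ‖f x‖ ^ a := by
        rw [div_pow, div_mul_cancel₀ _ hV.ne']
      rw [this]
      exact mul_lt_mul_of_pos_right ha hV
    calc (1 : ℝ) = ‖f x‖ ^ a * (‖f x‖ ^ a)⁻¹ := (mul_inv_cancel₀ hV.ne').symm
      _ < ‖f x‖ ^ a * (q : ℝ) ^ (n + 1) := mul_lt_mul_of_pos_left hn2 hV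
      _ = (q : ℝ) * ‖f x‖ ^ a * (q : ℝ) ^ n := by rw [zpow_add_one₀ hq0.ne']; ring
      _ < ‖g x‖ ^ a * (q : ℝ) ^ n := mul_lt_mul_of_pos_right h3 hqn
  exact absurd (h u h1) (not_le.mpr h2)

theorem bd_norm_eq (f g : Qbar →+* PadicAlgCl q)
    (h : ∀ x, ‖f x‖ ≤ 1 ↔ ‖g x‖ ≤ 1) (x : Qbar) : ‖f x‖ = ‖g x‖ := by
  by_cases hx : x = 0
  · subst hx; simp
  · exact le_antisymm (not_lt.mp (bd_not_lt q g f (fun y hy => (h y).mpr hy) x hx))
      (not_lt.mp (bd_not_lt q f g (fun y hy => (h y).mp hy) x hx))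

theorem bd_mem_padicPlace_iff (x : Qbar) : x ∈ padicPlace q ↔ ‖padicEmbedding q x‖ ≤ 1 := by
  rw [mem_padicPlace_iff]
  exact Iff.rfl

/-- BD1. Elements of the decomposition group preserve the `q`-adic absolute value. -/
theorem norm_padicEmbedding_of_mem_decompositionSubgroup (σ : GQ)
    (hσ : σ ∈ (padicPlace q).decompositionSubgroup ℚ) (x : Qbar) :
    ‖padicEmbedding q (σ x)‖ = ‖padicEmbedding q x‖ := by
  have hσ' : σ • padicPlace q = padicPlace q := hσ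
  have h1 : ∀ y : Qbar, σ y ∈ padicPlace q ↔ y ∈ padicPlace q := by
    intro y
    have h2 := ValuationSubring.mem_pointwise_smul_iff_inv_smul_mem (g := σ) (S := padicPlace q)
      (x := σ y)
    rw [hσ'] at h2
    rw [h2, AlgEquiv.smul_def]
    have : σ⁻¹ (σ y) = y := by
      rw [← AlgEquiv.mul_apply, inv_mul_cancel, AlgEquiv.one_apply]
    rw [this]
  have h3 := bd_norm_eq q ((padicEmbedding q).toRingHom.comp (σ : Qbar →+* Qbar))
    (padicEmbedding q).toRingHom (fun y => by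
      have := h1 y
      rw [bd_mem_padicPlace_iff, bd_mem_padicPlace_iff] at this
      exact this) x
  exact h3

local instance bd_tower : IsScalarTower ℚ ℚ_[q] (PadicAlgCl q) :=
  IsScalarTower.of_algebraMap_eq' (Subsingleton.elim _ _)

/-- The `ℚ_q`-algebra map `ℚ_q ⊗ Qbar → PadicAlgCl q` attached to a `ℚ`-embedding of `Qbar`. -/
noncomputable def bd_prod (j : Qbar →ₐ[ℚ] PadicAlgCl q) :
    ℚ_[q] ⊗[ℚ] Qbar →ₐ[ℚ_[q]] PadicAlgCl q :=
  Algebra.TensorProduct.productLeftAlgHom (Algebra.ofId ℚ_[q] (PadicAlgCl q)) j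

theorem bd_prod_tmul (j : Qbar →ₐ[ℚ] PadicAlgCl q) (a : ℚ_[q]) (x : Qbar) :
    bd_prod q j (a ⊗ₜ[ℚ] x) = algebraMap ℚ_[q] (PadicAlgCl q) a * j x := rfl

theorem bd_norm_sum_eq (σ : GQ) (hσ : σ ∈ (padicPlace q).decompositionSubgroup ℚ)
    (S : Finset (ℚ_[q] × Qbar)) (a : ℚ_[q] × Qbar → ℚ_[q]) :
    ‖∑ i ∈ S, algebraMap ℚ_[q] (PadicAlgCl q) (a i) * padicEmbedding q (σ i.2)‖ =
      ‖∑ i ∈ S, algebraMap ℚ_[q] (PadicAlgCl q) (a i) * padicEmbedding q i.2‖ := by
  have hd : DenseRange (Pi.map (fun (_ : ℚ_[q] × Qbar) (r : ℚ) => (r : ℚ_[q]))) :=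
    DenseRange.piMap (fun _ => Padic.denseRange_ratCast q)
  have hc : Continuous (algebraMap ℚ_[q] (PadicAlgCl q)) := continuous_algebraMap ℚ_[q] (PadicAlgCl q)
  refine hd.induction_on (p := fun a : ℚ_[q] × Qbar → ℚ_[q] =>
    ‖∑ i ∈ S, algebraMap ℚ_[q] (PadicAlgCl q) (a i) * padicEmbedding q (σ i.2)‖ =
      ‖∑ i ∈ S, algebraMap ℚ_[q] (PadicAlgCl q) (a i) * padicEmbedding q i.2‖) a ?_ ?_
  · apply isClosed_eq
    · exact continuous_norm.comp (continuous_finsetSum _ fun i _ =>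
        (hc.comp (continuous_apply i)).mul continuous_const)
    · exact continuous_norm.comp (continuous_finsetSum _ fun i _ =>
        (hc.comp (continuous_apply i)).mul continuous_const)
  · intro r
    have e1 : ∑ i ∈ S, algebraMap ℚ_[q] (PadicAlgCl q) ((r i : ℚ) : ℚ_[q]) * padicEmbedding q (σ i.2)
        = padicEmbedding q (σ (∑ i ∈ S, (r i : Qbar) * i.2)) := by
      simp [map_sum]
    have e2 : ∑ i ∈ S, algebraMap ℚ_[q] (PadicAlgCl q) ((r i : ℚ) : ℚ_[q]) * padicEmbedding q i.2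
        = padicEmbedding q (∑ i ∈ S, (r i : Qbar) * i.2) := by
      simp [map_sum]
    show ‖∑ i ∈ S, algebraMap ℚ_[q] (PadicAlgCl q) ((r i : ℚ) : ℚ_[q]) * padicEmbedding q (σ i.2)‖ =
      ‖∑ i ∈ S, algebraMap ℚ_[q] (PadicAlgCl q) ((r i : ℚ) : ℚ_[q]) * padicEmbedding q i.2‖
    rw [e1, e2, norm_padicEmbedding_of_mem_decompositionSubgroup q σ hσ]

theorem bd_ker_le (σ : GQ) (hσ : σ ∈ (padicPlace q).decompositionSubgroup ℚ)
    (z : ℚ_[q] ⊗[ℚ] Qbar) (hz : bd_prod q (padicEmbedding q) z = 0) :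
    bd_prod q ((padicEmbedding q).comp (σ : Qbar →ₐ[ℚ] Qbar)) z = 0 := by
  obtain ⟨S, rfl⟩ := TensorProduct.exists_finset z
  rw [map_sum] at hz ⊢
  simp only [bd_prod_tmul] at hz ⊢
  have h := bd_norm_sum_eq q σ hσ S Prod.fst
  rw [hz, norm_zero, norm_eq_zero] at h
  exact h

theorem bd_prod_surjective : Function.Surjective (bd_prod q (padicEmbedding q)) := by
  intro y
  have : FiniteDimensional ℚ_[q] (IntermediateField.adjoin ℚ_[q] {y}) :=
    IntermediateField.adjoin.finiteDimensional (Algebra.IsIntegral.isIntegral y)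
  obtain ⟨F, -, hE⟩ := exists_localField_eq q (IntermediateField.adjoin ℚ_[q] {y})
  have hy : y ∈ (localField q F 1).toSubalgebra := by
    rw [hE]
    exact IntermediateField.mem_adjoin_simple_self ℚ_[q] y
  rw [localField, IntermediateField.adjoin_toSubalgebra] at hy
  have hle : Algebra.adjoin ℚ_[q] (emb q 1 '' (F : Set Qbar)) ≤ (bd_prod q (padicEmbedding q)).range := by
    rw [Algebra.adjoin_le_iff]
    rintro _ ⟨x, -, rfl⟩
    refine ⟨(1 : ℚ_[q]) ⊗ₜ[ℚ] x, ?_⟩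
    show bd_prod q (padicEmbedding q) ((1 : ℚ_[q]) ⊗ₜ[ℚ] x) = emb q 1 x
    rw [bd_prod_tmul, map_one, one_mul, emb_apply, AlgEquiv.one_apply]
  exact hle hy

/-- The extension of `σ ∈ D` to `PadicAlgCl q`. -/
noncomputable def bd_tau (σ : GQ) (hσ : σ ∈ (padicPlace q).decompositionSubgroup ℚ) :
    PadicAlgCl q →ₐ[ℚ_[q]] PadicAlgCl q :=
  AlgHom.liftOfSurjective (bd_prod q (padicEmbedding q)) (bd_prod_surjective q)
    (bd_prod q ((padicEmbedding q).comp (σ : Qbar →ₐ[ℚ] Qbar)))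
    (fun z hz => RingHom.mem_ker.mpr (bd_ker_le q σ hσ z (RingHom.mem_ker.mp hz)))

theorem bd_tau_padicEmbedding (σ : GQ) (hσ : σ ∈ (padicPlace q).decompositionSubgroup ℚ)
    (x : Qbar) : bd_tau q σ hσ (padicEmbedding q x) = padicEmbedding q (σ x) := by
  have h1 : padicEmbedding q x = bd_prod q (padicEmbedding q) ((1 : ℚ_[q]) ⊗ₜ[ℚ] x) := by
    rw [bd_prod_tmul, map_one, one_mul]
  rw [h1, bd_tau, AlgHom.liftOfSurjective_apply, bd_prod_tmul, map_one, one_mul]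
  rfl

/-- BD2. The image of the local Galois group is the decomposition group of `padicPlace q`. -/
theorem range_localGaloisToGlobal :
    (localGaloisToGlobal q).range = (padicPlace q).decompositionSubgroup ℚ := by
  apply le_antisymm
  · rintro _ ⟨τ, rfl⟩
    exact localGaloisToGlobal_mem_decompositionSubgroup q τ
  · intro σ hσ
    refine ⟨AlgEquiv.ofBijective (bd_tau q σ hσ)
      (Algebra.IsAlgebraic.algHom_bijective (bd_tau q σ hσ)), ?_⟩
    apply AlgEquiv.ext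
    intro x
    apply (padicEmbedding q).injective
    show padicEmbedding q (localGaloisToGlobal q (AlgEquiv.ofBijective (bd_tau q σ hσ)
      (Algebra.IsAlgebraic.algHom_bijective (bd_tau q σ hσ))) x) = padicEmbedding q (σ x)
    rw [padicEmbedding_localGaloisToGlobal]
    exact bd_tau_padicEmbedding q σ hσ x


/-- BD3. The decomposition group of a conjugate place. -/
theorem decompositionSubgroup_smul_padicPlace (s σ : GQ) :
    σ ∈ (s • padicPlace q).decompositionSubgroup ℚ ↔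
      s⁻¹ * σ * s ∈ (padicPlace q).decompositionSubgroup ℚ := by
  show σ • (s • padicPlace q) = s • padicPlace q ↔ (s⁻¹ * σ * s) • padicPlace q = padicPlace q
  rw [mul_smul, mul_smul, inv_smul_eq_iff]

/-- BD4. Membership in a conjugate place. -/
theorem mem_smul_padicPlace_iff (s : GQ) (x : Qbar) :
    x ∈ s • padicPlace q ↔ ‖emb q s⁻¹ x‖ ≤ 1 := by
  rw [ValuationSubring.mem_pointwise_smul_iff_inv_smul_mem, AlgEquiv.smul_def,
    bd_mem_padicPlace_iff, emb_apply]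

end Fermat.Agent.S19.HFour227.Br
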