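-- S19 project, package Alg/HFour (helper227): verbatim copy of Fermat/Agent/S55/Bridge/Inertia.lean
-- (merged CFT-P6 wave 1 on origin/helper53, commit 5bce6be8c), with the namespace renamed to
-- Fermat.Agent.S19.HFour227.Br so that the S19 tree does not depend on the S55 tree.
/-
S55 / CFT, package P6 BRIDGE, file BI (inertia groups).
STATEMENTS ARE FROZEN (interface).  (All proofs are complete.)  Helper lemmas: add them in
THIS file, inside `namespace Fermat.Agent.S19.HFour227.Br`, with names prefixed `bi_` (fresh names).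
You may use the statements of `Krasner.lean`, `Fixing.lean`, `Decomp.lean` (import them).

Math.  `ValuationSubring.inertiaSubgroupIn ℚ A` (Prelude, `Def_FLTPrelim_Ramification`) is the image
in `GQ` of `A.inertiaSubgroup ℚ` = kernel of the action of the decomposition group on the residue
field of `A`, i.e. `{σ ∈ D_A : ∀ x ∈ A, σ x - x ∈ 𝔪_A}`.
* BI1: unfold.   * BI2: `σ = loc τ` (BD2); `τ ∈ localInertia` iff `‖τ y - y‖ < 1` for all
  `‖y‖ ≤ 1`; use density of `ι (Qbar)` (BK1) and the ultrametric inequality to pass between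
  `y ∈ PadicAlgCl q` and `y = ι x`.   * BI3: transport of structure along `s`.
-/
import Fermat.Agent.S19.HFour227.Br.Defs
import Fermat.Agent.S19.HFour227.Br.Krasner
import Fermat.Agent.S19.HFour227.Br.Fixing
import Fermat.Agent.S19.HFour227.Br.Decomp

set_option autoImplicit false

open scoped Pointwise

namespace Fermat.Agent.S19.HFour227.Br

variable (q : ℕ) [Fact q.Prime]

/-- membership in the Mathlib inertia subgroup -/
theorem bi_mem_inertiaSubgroup_iff (A : ValuationSubring Qbar)
    (g : A.decompositionSubgroup ℚ) :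
    g ∈ A.inertiaSubgroup ℚ ↔ ∀ x : A, g • x - x ∈ IsLocalRing.maximalIdeal A := by
  unfold ValuationSubring.inertiaSubgroup
  rw [MonoidHom.mem_ker]
  constructor
  · intro hg x
    have h1 : g • (IsLocalRing.residue A x) = IsLocalRing.residue A x := by
      have h2 := congrArg (fun e : RingAut (IsLocalRing.ResidueField A) =>
        e (IsLocalRing.residue A x)) hg
      exact h2
    rw [← IsLocalRing.ResidueField.residue_smul, ← sub_eq_zero, ← map_sub,
      IsLocalRing.residue_eq_zero_iff] at h1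
    exact h1
  · intro h
    apply RingEquiv.ext
    intro r
    obtain ⟨x, rfl⟩ := IsLocalRing.residue_surjective r
    show g • (IsLocalRing.residue A x) = IsLocalRing.residue A x
    rw [← IsLocalRing.ResidueField.residue_smul, ← sub_eq_zero, ← map_sub, IsLocalRing.residue_eq_zero_iff]
    exact h x

/-- BI1. Concrete description of the Prelude inertia subgroup of any valuation subring of `Qbar`. -/
theorem mem_inertiaSubgroupIn_iff (A : ValuationSubring Qbar) (σ : GQ) :
    σ ∈ A.inertiaSubgroupIn ℚ ↔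
      σ ∈ A.decompositionSubgroup ℚ ∧ ∀ x ∈ A, σ x - x ∈ A.nonunits := by
  unfold ValuationSubring.inertiaSubgroupIn
  rw [Subgroup.mem_map]
  constructor
  · rintro ⟨g, hg, rfl⟩
    refine ⟨g.2, fun x hx => ?_⟩
    have h1 := (bi_mem_inertiaSubgroup_iff A g).mp hg ⟨x, hx⟩
    exact ValuationSubring.coe_mem_nonunits_iff.mpr h1
  · rintro ⟨hσ, h⟩
    refine ⟨⟨σ, hσ⟩, ?_, rfl⟩
    rw [bi_mem_inertiaSubgroup_iff]
    intro x
    exact ValuationSubring.coe_mem_nonunits_iff.mp (h x.1 x.2)

theorem bi_norm_le_one_iff_mem_padicPlace (y : Qbar) :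
    ‖padicEmbedding q y‖ ≤ 1 ↔ y ∈ padicPlace q := by
  rw [mem_padicPlace_iff, ← NNReal.coe_le_coe, coe_nnnorm, NNReal.coe_one]

/-- the maximal ideal of `padicPlace q` in terms of the norm -/
theorem bi_mem_nonunits_padicPlace_iff (x : Qbar) :
    x ∈ (padicPlace q).nonunits ↔ ‖padicEmbedding q x‖ < 1 := by
  rw [ValuationSubring.mem_nonunits_iff_or, ← bi_norm_le_one_iff_mem_padicPlace]
  by_cases hx : x = 0
  · subst hx
    simp
  · have hpos : 0 < ‖padicEmbedding q x‖ := norm_pos_iff.mpr ((_root_.map_ne_zero _).mpr hx)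
    rw [map_inv₀, norm_inv, inv_le_one₀ hpos, not_le]
    simp [hx]

theorem bi_norm_apply (τ : Gq q) (y : PadicAlgCl q) : ‖τ y‖ = ‖y‖ :=
  congrArg NNReal.toReal (nnnorm_padicAlgCl_algEquiv q τ y)

/-- the local inertia group in terms of the algebraic numbers -/
theorem bi_mem_localInertia_iff (τ : Gq q) :
    τ ∈ localInertia q ↔
      ∀ x : Qbar, ‖padicEmbedding q x‖ ≤ 1 →
        ‖τ (padicEmbedding q x) - padicEmbedding q x‖ < 1 := by
  rw [mem_localInertia_iff]
  constructor
  · intro h x hx
    exact h _ hx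
  · intro h y hy
    obtain ⟨x, hx⟩ := Metric.denseRange_iff.mp (denseRange_padicEmbedding q) y 1 one_pos
    rw [dist_eq_norm] at hx
    have hx1 : ‖padicEmbedding q x‖ ≤ 1 := by
      have h1 : padicEmbedding q x = y + (padicEmbedding q x - y) := by ring
      rw [h1]
      refine (PadicAlgCl.isNonarchimedean q _ _).trans (max_le hy ?_)
      rw [← norm_neg, neg_sub]
      exact hx.le
    have h2 : τ y - y = (τ (y - padicEmbedding q x) +
        (τ (padicEmbedding q x) - padicEmbedding q x)) + (padicEmbedding q x - y) := by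
      rw [map_sub]; ring
    rw [h2]
    refine lt_of_le_of_lt (PadicAlgCl.isNonarchimedean q _ _) (max_lt ?_ ?_)
    · refine lt_of_le_of_lt (PadicAlgCl.isNonarchimedean q _ _) (max_lt ?_ (h x hx1))
      rw [bi_norm_apply]
      exact hx
    · rw [← norm_neg, neg_sub]
      exact hx

/-- BI2. The Prelude inertia subgroup of `padicPlace q` is the image of the local inertia group. -/
theorem map_localInertia :
    (localInertia q).map (localGaloisToGlobal q) = (padicPlace q).inertiaSubgroupIn ℚ := by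
  ext σ
  rw [Subgroup.mem_map, mem_inertiaSubgroupIn_iff]
  constructor
  · rintro ⟨τ, hτ, rfl⟩
    refine ⟨localGaloisToGlobal_mem_decompositionSubgroup q τ, fun x hx => ?_⟩
    rw [bi_mem_nonunits_padicPlace_iff, map_sub, padicEmbedding_localGaloisToGlobal]
    exact (bi_mem_localInertia_iff q τ).mp hτ x ((bi_norm_le_one_iff_mem_padicPlace q x).mpr hx)
  · rintro ⟨hσ, h⟩
    have hmem : σ ∈ (localGaloisToGlobal q).range := by
      rw [range_localGaloisToGlobal]; exact hσ
    obtain ⟨τ, rfl⟩ := hmem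
    refine ⟨τ, ?_, rfl⟩
    rw [bi_mem_localInertia_iff]
    intro x hx
    have h1 := h x ((bi_norm_le_one_iff_mem_padicPlace q x).mp hx)
    rw [bi_mem_nonunits_padicPlace_iff, map_sub, padicEmbedding_localGaloisToGlobal] at h1
    exact h1

/-- nonunits of a conjugate valuation subring -/
theorem bi_mem_nonunits_smul_iff (A : ValuationSubring Qbar) (s : GQ) (z : Qbar) :
    z ∈ (s • A).nonunits ↔ s⁻¹ z ∈ A.nonunits := by
  rw [ValuationSubring.mem_nonunits_iff_or, ValuationSubring.mem_nonunits_iff_or,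
    ValuationSubring.mem_pointwise_smul_iff_inv_smul_mem]
  have h1 : s⁻¹ • z⁻¹ = (s⁻¹ z)⁻¹ := map_inv₀ (s⁻¹ : GQ) z
  rw [h1, EmbeddingLike.map_eq_zero_iff]

/-- BI3. The inertia subgroup of a conjugate place. -/
theorem mem_inertiaSubgroupIn_smul_iff (A : ValuationSubring Qbar) (s σ : GQ) :
    σ ∈ (s • A).inertiaSubgroupIn ℚ ↔ s⁻¹ * σ * s ∈ A.inertiaSubgroupIn ℚ := by
  rw [mem_inertiaSubgroupIn_iff, mem_inertiaSubgroupIn_iff]
  have hD : σ ∈ (s • A).decompositionSubgroup ℚ ↔ s⁻¹ * σ * s ∈ A.decompositionSubgroup ℚ := by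
    show σ • s • A = s • A ↔ (s⁻¹ * σ * s) • A = A
    rw [mul_smul, mul_smul, inv_smul_eq_iff]
  rw [hD]
  refine and_congr_right (fun _ => ?_)
  constructor
  · intro h y hy
    have h1 := h (s y) (ValuationSubring.smul_mem_pointwise_smul s y A hy)
    rw [bi_mem_nonunits_smul_iff, map_sub] at h1
    have h2 : s⁻¹ (s y) = y := by
      rw [AlgEquiv.aut_inv, AlgEquiv.symm_apply_apply]
    rw [h2] at h1
    exact h1
  · intro h x hx
    rw [ValuationSubring.mem_pointwise_smul_iff_inv_smul_mem] at hx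
    have h1 := h (s⁻¹ x) hx
    rw [bi_mem_nonunits_smul_iff, map_sub]
    have h2 : (s⁻¹ * σ * s) (s⁻¹ x) = s⁻¹ (σ x) := by
      rw [AlgEquiv.mul_apply, AlgEquiv.mul_apply]
      congr 2
      rw [AlgEquiv.aut_inv, AlgEquiv.apply_symm_apply]
    rw [h2] at h1
    exact h1

/-- BI4. The local inertia group is normal. -/
theorem localInertia_normal : (localInertia q).Normal := by
  constructor
  intro τ hτ g
  rw [mem_localInertia_iff] at hτ ⊢
  intro x hx
  have h1 : ‖g⁻¹ x‖ ≤ 1 := by rw [bi_norm_apply]; exact hx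
  have h2 : (g * τ * g⁻¹) x - x = g (τ (g⁻¹ x) - g⁻¹ x) := by
    rw [AlgEquiv.mul_apply, AlgEquiv.mul_apply, map_sub]
    congr 1
    rw [AlgEquiv.aut_inv, AlgEquiv.apply_symm_apply]
  rw [h2, bi_norm_apply]
  exact hτ _ h1

end Fermat.Agent.S19.HFour227.Br
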