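-- S19 project, package Alg/HFour (helper227): verbatim copy of Fermat/Agent/S55/Bridge/Places.lean
-- (merged CFT-P6 wave 1 on origin/helper53, commit 5bce6be8c), with the namespace renamed to
-- Fermat.Agent.S19.HFour227.Br so that the S19 tree does not depend on the S55 tree.
/-
S55 / CFT, package P6 BRIDGE, file BV (all places of `Qbar` above `q` are conjugate).
STATEMENTS ARE FROZEN (interface).  (All proofs are complete.)  Helper lemmas: add them in
THIS file, inside `namespace Fermat.Agent.S19.HFour227.Br`, with names prefixed `bv_` (fresh names).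

Math.  Let `A` be a valuation subring of `Qbar` with `q ∈ 𝔪_A`.
For a finite Galois `F/ℚ` inside `Qbar`, `A ∩ F` is a valuation ring of `F` containing `ℤ`, hence
the integral closure `𝓞_F`-localisation at the prime `𝔪_A ∩ 𝓞_F ∋ q`.  `Gal(F/ℚ)` acts
transitively on the primes of `𝓞_F` above `q` (Mathlib: `Ideal.exists_smul_eq_of_comap_eq` /
`IsGaloisGroup`/`Algebra.IsInvariant` API for `comap` equal primes in a Galois extension), so the
set `T_F = {s ∈ GQ : (s • padicPlace q) ∩ F = A ∩ F}` is nonempty; it is a union of cosets of the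
open subgroup `Gal(Qbar/F)`, and `T_F ⊇ T_F'` for `F ⊆ F'`.  A compactness argument (GQ is a
compact topological group for the Krull topology, the `T_F` are closed, nonempty and directed; or a
direct Zorn / inverse-limit argument over the directed family of finite Galois subextensions)
gives `s ∈ ⋂ T_F`, and then `s • padicPlace q = A` because `Qbar = ⋃ F`.
-/
import Fermat.Agent.S19.HFour227.Br.Defs

set_option autoImplicit false

open scoped Pointwise

namespace Fermat.Agent.S19.HFour227.Br

variable (q : ℕ) [Fact q.Prime]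

section BVDenominators

open Polynomial

/-- Integrality step: if `a ^ k * d + ∑_{i<k} c i * a ^ i = 0` with `d` and all `c i` integral
over `ℤ`, then `a * d` is integral over `ℤ`. -/
theorem bv_isIntegral_mul_of_relation {L : Type*} [Field L] (a d : L) (k : ℕ) (c : ℕ → L)
    (hd : IsIntegral ℤ d) (hc : ∀ i, IsIntegral ℤ (c i))
    (h : a ^ k * d + ∑ i ∈ Finset.range k, c i * a ^ i = 0) : IsIntegral ℤ (a * d) := by
  by_cases hd0 : d = 0
  · rw [hd0, mul_zero]; exact isIntegral_zero
  let B := integralClosure ℤ L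
  let d' : B := ⟨d, hd⟩
  let c' : ℕ → B := fun i => ⟨c i, hc i⟩
  have hd'0 : d' ≠ 0 := fun h0 => hd0 (congrArg Subtype.val h0)
  let q : B[X] := ∑ i ∈ Finset.range k, C (c' i) * X ^ i
  let p : B[X] := C d' * X ^ k + q
  have hqdeg : q.degree < (k : WithBot ℕ) :=
    (Polynomial.degree_sum_le _ _).trans_lt ((Finset.sup_lt_iff (WithBot.bot_lt_coe k)).2
      fun i hi => (Polynomial.degree_C_mul_X_pow_le i _).trans_lt
        (WithBot.coe_lt_coe.2 (Finset.mem_range.1 hi)))
  have hlead : p.leadingCoeff = d' := by
    have h1 : (C d' * X ^ k : B[X]).degree = k := Polynomial.degree_C_mul_X_pow k hd'0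
    have h2 : q.degree < (C d' * X ^ k : B[X]).degree := by rw [h1]; exact hqdeg
    show (C d' * X ^ k + q).leadingCoeff = d'
    rw [add_comm, Polynomial.leadingCoeff_add_of_degree_lt h2, Polynomial.leadingCoeff_C_mul_X_pow]
  have hroot : aeval a p = 0 := by
    show aeval a (C d' * X ^ k + ∑ i ∈ Finset.range k, C (c' i) * X ^ i) = 0
    simp only [map_add, map_mul, map_sum, map_pow, aeval_C, aeval_X]
    rw [← h]
    congr 1
    exact mul_comm _ _
  have hint : IsIntegral B (p.leadingCoeff • a) := isIntegral_leadingCoeff_smul p a hroot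
  rw [hlead] at hint
  have h3 : d' • a = a * d := by
    show d * a = a * d
    exact mul_comm _ _
  rw [h3] at hint
  exact isIntegral_trans _ hint

/-- Horner-type descent: an element `a` of a valuation subring `V` which satisfies a polynomial
relation with integral coefficients, not all in the maximal ideal of `V`, can be written with an
integral denominator which is a unit of `V`. -/
theorem bv_exists_denominator_of_relation {L : Type*} [Field L] (V : ValuationSubring L) (a : L)
    (ha : a ∈ V) :
    ∀ (m : ℕ) (b : ℕ → L), (∀ i, IsIntegral ℤ (b i)) →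
      ∑ i ∈ Finset.range (m + 1), b i * a ^ i = 0 → (∃ i, i ≤ m ∧ b i ∉ V.nonunits) →
      ∃ s : L, IsIntegral ℤ s ∧ s ∉ V.nonunits ∧ IsIntegral ℤ (a * s) := by
  intro m
  induction m with
  | zero =>
    intro b _ hsum hex
    exfalso
    obtain ⟨i, hi, hbi⟩ := hex
    have hi0 : i = 0 := Nat.le_zero.mp hi
    subst hi0
    apply hbi
    have h0 : b 0 = 0 := by simpa using hsum
    rw [h0]
    exact V.nonunits.zero_mem
  | succ m ih =>
    intro b hb hsum hex
    have hrel : a ^ (m + 1) * b (m + 1) + ∑ i ∈ Finset.range (m + 1), b i * a ^ i = 0 := by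
      rw [Finset.sum_range_succ] at hsum
      rw [← hsum]
      ring
    have hy : IsIntegral ℤ (a * b (m + 1)) :=
      bv_isIntegral_mul_of_relation a (b (m + 1)) (m + 1) b (hb _) hb hrel
    by_cases hbm : b (m + 1) ∈ V.nonunits
    · -- absorb the top coefficient
      have hyV : a * b (m + 1) ∈ V.nonunits := by
        rw [ValuationSubring.mem_nonunits_iff] at hbm ⊢
        rw [map_mul]
        have ha1 : V.valuation a ≤ 1 := (V.valuation_le_one_iff a).2 ha
        calc V.valuation a * V.valuation (b (m + 1)) ≤ 1 * V.valuation (b (m + 1)) :=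
              mul_le_mul_left ha1 _
          _ = V.valuation (b (m + 1)) := one_mul _
          _ < 1 := hbm
      let b' : ℕ → L := Function.update b m (b m + a * b (m + 1))
      have hb' : ∀ i, IsIntegral ℤ (b' i) := by
        intro i
        by_cases him : i = m
        · subst him
          simp only [b', Function.update_self]
          exact (hb i).add hy
        · simp only [b', Function.update_of_ne him]
          exact hb i
      have hsum' : ∑ i ∈ Finset.range (m + 1), b' i * a ^ i = 0 := by
        rw [Finset.sum_range_succ] at hsum ⊢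
        rw [Finset.sum_range_succ] at hsum
        have h1 : ∑ i ∈ Finset.range m, b' i * a ^ i = ∑ i ∈ Finset.range m, b i * a ^ i := by
          apply Finset.sum_congr rfl
          intro i hi
          have him : i ≠ m := (Finset.mem_range.1 hi).ne
          simp only [b', Function.update_of_ne him]
        rw [h1]
        simp only [b', Function.update_self]
        rw [← hsum]
        ring
      have hex' : ∃ i, i ≤ m ∧ b' i ∉ V.nonunits := by
        obtain ⟨i, hi, hbi⟩ := hex
        have hi1 : i ≠ m + 1 := by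
          rintro rfl
          exact hbi hbm
        by_cases him : i = m
        · subst him
          refine ⟨i, le_rfl, ?_⟩
          simp only [b', Function.update_self]
          intro hmem
          apply hbi
          have := V.nonunits.sub_mem hmem hyV
          simpa using this
        · refine ⟨i, by omega, ?_⟩
          simp only [b', Function.update_of_ne him]
          exact hbi
      exact ih b' hb' hsum' hex'
    · exact ⟨b (m + 1), hb _, hbm, hy⟩

/-- An integer prime to `ℓ` is not in the maximal ideal of a valuation subring containing `ℓ`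
in its maximal ideal. -/
theorem bv_intCast_not_mem_nonunits {L : Type*} [Field L] (V : ValuationSubring L) (ℓ : ℕ)
    (hℓ : ℓ.Prime) (hV : (ℓ : L) ∈ V.nonunits) (c : ℤ) (hc : ¬ (ℓ : ℤ) ∣ c) :
    (c : L) ∉ V.nonunits := by
  intro hmem
  have hcop : IsCoprime (ℓ : ℤ) c :=
    (Nat.prime_iff_prime_int.mp hℓ).coprime_iff_not_dvd.2 hc
  obtain ⟨u, v, huv⟩ := hcop
  have h1 : ((u : L) * (ℓ : L) + (v : L) * (c : L)) = 1 := by
    have := congrArg (Int.cast : ℤ → L) huv
    push_cast at this
    exact this
  have h2 : (1 : L) ∈ V.nonunits := by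
    rw [← h1]
    refine V.nonunits.add_mem ?_ ?_
    · rw [ValuationSubring.mem_nonunits_iff] at hV ⊢
      rw [map_mul]
      have hu : V.valuation (u : L) ≤ 1 := (V.valuation_le_one_iff _).2 (intCast_mem V u)
      calc V.valuation (u : L) * V.valuation (ℓ : L) ≤ 1 * V.valuation (ℓ : L) :=
            mul_le_mul_left hu _
        _ = V.valuation (ℓ : L) := one_mul _
        _ < 1 := hV
    · rw [ValuationSubring.mem_nonunits_iff] at hmem ⊢
      rw [map_mul]
      have hu : V.valuation (v : L) ≤ 1 := (V.valuation_le_one_iff _).2 (intCast_mem V v)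
      calc V.valuation (v : L) * V.valuation (c : L) ≤ 1 * V.valuation (c : L) :=
            mul_le_mul_left hu _
        _ = V.valuation (c : L) := one_mul _
        _ < 1 := hmem
  rw [ValuationSubring.mem_nonunits_iff, map_one] at h2
  exact lt_irrefl _ h2

/-- Every element of a valuation subring `V` (with a rational prime `ℓ` in its maximal ideal) of
a characteristic zero field, which is algebraic over `ℤ`, has an integral denominator which is
a unit of `V`. -/
theorem bv_exists_denominator {L : Type*} [Field L] [CharZero L] (V : ValuationSubring L) (ℓ : ℕ)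
    (hℓ : ℓ.Prime) (hV : (ℓ : L) ∈ V.nonunits) (a : L) (ha : a ∈ V) (halg : IsAlgebraic ℤ a) :
    ∃ s : L, IsIntegral ℤ s ∧ s ∉ V.nonunits ∧ IsIntegral ℤ (a * s) := by
  obtain ⟨f, hf0, hfa⟩ := halg
  have hg : aeval a f.primPart = 0 := Polynomial.aeval_primPart_eq_zero hf0 hfa
  have hprim : f.primPart.IsPrimitive := f.isPrimitive_primPart
  set g := f.primPart with hgdef
  refine bv_exists_denominator_of_relation V a ha g.natDegree (fun i => ((g.coeff i : ℤ) : L))
    (fun i => isIntegral_algebraMap (R := ℤ) (A := L) (x := g.coeff i)) ?_ ?_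
  · rw [Polynomial.aeval_eq_sum_range] at hg
    rw [← hg]
    apply Finset.sum_congr rfl
    intro i _
    rw [zsmul_eq_mul]
  · by_contra hcon
    push Not at hcon
    have hdvd : ∀ i, (ℓ : ℤ) ∣ g.coeff i := by
      intro i
      by_contra hndvd
      by_cases hi : i ≤ g.natDegree
      · exact bv_intCast_not_mem_nonunits V ℓ hℓ hV _ hndvd (hcon i hi)
      · apply hndvd
        rw [Polynomial.coeff_eq_zero_of_natDegree_lt (not_le.mp hi)]
        exact dvd_zero _
    have hC : C (ℓ : ℤ) ∣ g := (Polynomial.C_dvd_iff_dvd_coeff _ _).2 hdvd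
    have hunit : IsUnit (ℓ : ℤ) := hprim _ hC
    exact (Nat.prime_iff_prime_int.mp hℓ).not_isUnit hunit

theorem bv_mul_mem_nonunits {L : Type*} [Field L] (V : ValuationSubring L) {x y : L}
    (hx : x ∈ V) (hy : y ∈ V.nonunits) : x * y ∈ V.nonunits := by
  rw [ValuationSubring.mem_nonunits_iff] at hy ⊢
  rw [map_mul]
  have hx1 : V.valuation x ≤ 1 := (V.valuation_le_one_iff x).2 hx
  calc V.valuation x * V.valuation y ≤ 1 * V.valuation y := mul_le_mul_left hx1 _
    _ = V.valuation y := one_mul _
    _ < 1 := hy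

theorem bv_valuation_eq_one_of_mem {L : Type*} [Field L] (V : ValuationSubring L) {x : L}
    (hx : x ∈ V) (hx' : x ∉ V.nonunits) : V.valuation x = 1 := by
  have hx1 : V.valuation x ≤ 1 := (V.valuation_le_one_iff x).2 hx
  rw [ValuationSubring.mem_nonunits_iff] at hx'
  exact le_antisymm hx1 (not_lt.mp hx')

end BVDenominators

/-- `‖(q : PadicAlgCl q)‖₊ = q⁻¹`. -/
theorem bv_nnnorm_natCast_self : ‖(q : PadicAlgCl q)‖₊ = 1 / (q : NNReal) := by
  rw [← PadicAlgCl.valuation_def, PadicAlgCl.valuation_p]

/-- The inverse of `q` is not in `padicPlace q`. -/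
theorem bv_inv_natCast_not_mem_padicPlace : ((q : Qbar))⁻¹ ∉ padicPlace q := by
  rw [mem_padicPlace_iff, map_inv₀, map_natCast, nnnorm_inv, bv_nnnorm_natCast_self, one_div,
    inv_inv, not_le]
  have h2 : 2 ≤ q := (Fact.out : q.Prime).two_le
  exact_mod_cast h2

/-- BV0. `padicPlace q` lies over `q`. -/
theorem padicPlace_liesOverPrime : (padicPlace q).LiesOverPrime q := by
  show (q : Qbar) ∈ (padicPlace q).nonunits
  rw [ValuationSubring.mem_nonunits_iff_or]
  exact Or.inr (bv_inv_natCast_not_mem_padicPlace q)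

/-- Conjugates of a valuation subring over `q` lie over `q`. -/
theorem bv_smul_liesOverPrime (A : ValuationSubring Qbar) (hA : A.LiesOverPrime q) (s : GQ) :
    (s • A).LiesOverPrime q := by
  have hq0 : (q : Qbar) ≠ 0 := by
    have := (Fact.out : q.Prime).ne_zero
    exact_mod_cast this
  have h1 : ((q : Qbar))⁻¹ ∉ A := by
    have h := (ValuationSubring.mem_nonunits_iff_or (A := A)).mp hA
    exact h.resolve_left hq0
  show (q : Qbar) ∈ (s • A).nonunits
  rw [ValuationSubring.mem_nonunits_iff_or]
  refine Or.inr ?_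
  rw [ValuationSubring.mem_pointwise_smul_iff_inv_smul_mem]
  have h2 : s⁻¹ • ((q : Qbar))⁻¹ = ((q : Qbar))⁻¹ := by
    rw [AlgEquiv.smul_def, map_inv₀, map_natCast]
  rw [h2]
  exact h1

/-- BV1. Conjugates of `padicPlace q` lie over `q`. -/
theorem smul_padicPlace_liesOverPrime (s : GQ) : (s • padicPlace q).LiesOverPrime q :=
  bv_smul_liesOverPrime q _ (padicPlace_liesOverPrime q) s

section BVConj

theorem bv_algebraRat_eq : (DivisionRing.toRatAlgebra : Algebra ℚ (AlgebraicClosure ℚ)) =
    AlgebraicClosure.instAlgebra ℚ := Subsingleton.elim _ _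

theorem bv_isAlgClosure_rat : IsAlgClosure ℚ (AlgebraicClosure ℚ) := by
  rw [bv_algebraRat_eq]; infer_instance

attribute [local instance] bv_isAlgClosure_rat

theorem bv_isAlgebraic_int (x : Qbar) : IsAlgebraic ℤ x :=
  (IsFractionRing.isAlgebraic_iff ℤ ℚ Qbar).2 (Algebra.IsAlgebraic.isAlgebraic x)

/-- The prime ideal of the ring of all algebraic integers cut out by a valuation subring. -/
def bv_idealOf (A : ValuationSubring Qbar) : Ideal (integralClosure ℤ Qbar) where
  carrier := {b | (b : Qbar) ∈ A.nonunits}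
  add_mem' := fun {a b} ha hb => A.nonunits.add_mem ha hb
  zero_mem' := A.nonunits.zero_mem
  smul_mem' := fun c x hx => by
    show ((c * x : integralClosure ℤ Qbar) : Qbar) ∈ A.nonunits
    have hc : (c : Qbar) ∈ A := by
      have h1 : IsIntegral A (c : Qbar) := c.2.tower_top
      obtain ⟨y, hy⟩ := (IsIntegrallyClosed.isIntegral_iff (R := A) (K := Qbar)).1 h1
      rw [← hy]; exact y.2
    exact bv_mul_mem_nonunits A hc hx

theorem bv_mem_idealOf (A : ValuationSubring Qbar) (b : integralClosure ℤ Qbar) :
    b ∈ bv_idealOf A ↔ (b : Qbar) ∈ A.nonunits := Iff.rfl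

theorem bv_mem_of_isIntegral (A : ValuationSubring Qbar) {x : Qbar} (hx : IsIntegral ℤ x) :
    x ∈ A := by
  have h1 : IsIntegral A x := hx.tower_top
  obtain ⟨y, hy⟩ := (IsIntegrallyClosed.isIntegral_iff (R := A) (K := Qbar)).1 h1
  rw [← hy]; exact y.2

theorem bv_idealOf_isPrime (A : ValuationSubring Qbar) : (bv_idealOf A).IsPrime := by
  refine ⟨?_, ?_⟩
  · intro h
    have h1 : (1 : integralClosure ℤ Qbar) ∈ bv_idealOf A := by rw [h]; exact Submodule.mem_top
    rw [bv_mem_idealOf] at h1
    have h2 : ((1 : integralClosure ℤ Qbar) : Qbar) = 1 := rfl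
    rw [h2, ValuationSubring.mem_nonunits_iff, map_one] at h1
    exact lt_irrefl _ h1
  · intro x y hxy
    by_contra hcon
    push Not at hcon
    obtain ⟨hx, hy⟩ := hcon
    rw [bv_mem_idealOf] at hx hy hxy
    have hx1 := bv_valuation_eq_one_of_mem A (bv_mem_of_isIntegral A x.2) hx
    have hy1 := bv_valuation_eq_one_of_mem A (bv_mem_of_isIntegral A y.2) hy
    have h2 : ((x * y : integralClosure ℤ Qbar) : Qbar) = (x : Qbar) * (y : Qbar) := rfl
    rw [h2, ValuationSubring.mem_nonunits_iff, map_mul, hx1, hy1, one_mul] at hxy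
    exact lt_irrefl _ hxy

/-- The contraction to `ℤ` of the prime cut out by a valuation subring over `q`. -/
theorem bv_under_idealOf (A : ValuationSubring Qbar) (hA : A.LiesOverPrime q) :
    (bv_idealOf A).under ℤ = Ideal.span {(q : ℤ)} := by
  have hq : q.Prime := Fact.out
  ext n
  rw [Ideal.mem_span_singleton, Ideal.under_def, Ideal.mem_comap, bv_mem_idealOf]
  have hcast : ((algebraMap ℤ (integralClosure ℤ Qbar) n : integralClosure ℤ Qbar) : Qbar)
      = (n : Qbar) := by
    simp
  rw [hcast]
  constructor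
  · intro h
    by_contra hnd
    exact bv_intCast_not_mem_nonunits A q hq hA n hnd h
  · rintro ⟨m, rfl⟩
    have h1 : (((q : ℤ) * m : ℤ) : Qbar) = (m : Qbar) * (q : Qbar) := by
      push_cast; ring
    rw [h1]
    exact bv_mul_mem_nonunits A (intCast_mem A m) hA

/-- Comparison of two valuation subrings over `q` through their primes of algebraic integers. -/
theorem bv_le_smul_of_idealOf (A P : ValuationSubring Qbar) (hA : A.LiesOverPrime q)
    (g : GQ)
    (h : ∀ s : Qbar, IsIntegral ℤ s → g⁻¹ s ∈ P.nonunits → s ∈ A.nonunits) :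
    A ≤ g • P := by
  have hq : q.Prime := Fact.out
  intro x hx
  rw [ValuationSubring.mem_pointwise_smul_iff_inv_smul_mem, AlgEquiv.smul_def]
  obtain ⟨s, hs, hsA, hxs⟩ := bv_exists_denominator A q hq hA x hx (bv_isAlgebraic_int x)
  have hgs : P.valuation (g⁻¹ s) = 1 := by
    refine bv_valuation_eq_one_of_mem P (bv_mem_of_isIntegral P (hs.map g⁻¹)) ?_
    intro hmem
    exact hsA (h s hs hmem)
  have h3 : P.valuation (g⁻¹ x) = P.valuation (g⁻¹ (x * s)) := by
    rw [map_mul, map_mul, hgs, mul_one]
  rw [← P.valuation_le_one_iff, h3, P.valuation_le_one_iff]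
  exact bv_mem_of_isIntegral P (hxs.map g⁻¹)

end BVConj

section BVMain

attribute [local instance] bv_isAlgClosure_rat

/-- BV2. Every valuation subring of `Qbar` lying over `q` is a conjugate of `padicPlace q`. -/
theorem exists_smul_padicPlace_eq (A : ValuationSubring Qbar) (hA : A.LiesOverPrime q) :
    ∃ s : GQ, A = s • padicPlace q := by
  classical
  have hq : q.Prime := Fact.out
  let L := AlgebraicClosure ℚ
  let G := L ≃ₐ[ℚ] L
  let B := integralClosure ℤ L
  let _ : TopologicalSpace B := ⊥
  have : DiscreteTopology B := ⟨rfl⟩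
  have : ContinuousSMul G B := by
    rw [continuousSMul_iff_stabilizer_isOpen]
    intro b
    have h1 := stabilizer_isOpen_of_isIntegral (K := ℚ) (L := L) (b : L)
    convert h1 using 1
    ext g
    rw [SetLike.mem_coe, SetLike.mem_coe, MulAction.mem_stabilizer_iff,
      MulAction.mem_stabilizer_iff, Subtype.ext_iff]
    rfl
  have : Algebra.IsInvariant ℤ B G := ⟨fun b hb => by
    have h1 : (b : L) ∈ Set.range (algebraMap ℚ L) :=
      (InfiniteGalois.mem_range_algebraMap_iff_fixed (b : L)).2
        fun g => congrArg Subtype.val (hb g)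
    obtain ⟨r, hr⟩ := h1
    have h2 : IsIntegral ℤ r := by
      have h3 : IsIntegral ℤ (algebraMap ℚ L r) := hr ▸ b.2
      exact (isIntegral_algebraMap_iff (algebraMap ℚ L).injective).1 h3
    obtain ⟨n, hn⟩ := IsIntegrallyClosed.algebraMap_eq_of_integral h2
    refine ⟨n, Subtype.ext ?_⟩
    rw [← hr, ← hn]
    simp⟩
  set P := padicPlace q with hP
  have hPq : P.LiesOverPrime q := padicPlace_liesOverPrime q
  have := bv_idealOf_isPrime A
  have := bv_idealOf_isPrime P
  have hunder : (bv_idealOf P).under ℤ = (bv_idealOf A).under ℤ := by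
    rw [bv_under_idealOf q A hA, bv_under_idealOf q P hPq]
  obtain ⟨g, hg⟩ := Algebra.IsInvariant.exists_smul_of_under_eq_of_profinite (A := ℤ) (G := G)
    (bv_idealOf P) (bv_idealOf A) hunder
  -- membership in `g • idealOf P`
  have hmem : ∀ b : B, b ∈ bv_idealOf A ↔ g⁻¹ • b ∈ bv_idealOf P := by
    intro b
    rw [hg, Ideal.mem_pointwise_smul_iff_inv_smul_mem]
  have hcoe : ∀ (τ : G) (b : B), ((τ • b : B) : L) = τ (b : L) := fun _ _ => rfl
  refine ⟨g, le_antisymm ?_ ?_⟩
  · refine bv_le_smul_of_idealOf q A P hA g ?_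
    intro s hs hsP
    have h1 : g⁻¹ • (⟨s, hs⟩ : B) ∈ bv_idealOf P := by
      rw [bv_mem_idealOf, hcoe]; exact hsP
    exact (bv_mem_idealOf A ⟨s, hs⟩).mp ((hmem ⟨s, hs⟩).mpr h1)
  · -- `g • P ≤ A`, i.e. `P ≤ g⁻¹ • A`
    have h2 : P ≤ g⁻¹ • A := by
      refine bv_le_smul_of_idealOf q P A hPq g⁻¹ ?_
      intro s hs hsA
      rw [inv_inv] at hsA
      have h1 : g⁻¹ • (⟨g s, hs.map g⟩ : B) ∈ bv_idealOf P := by
        have := (hmem ⟨g s, hs.map g⟩).mp ((bv_mem_idealOf A _).mpr hsA)
        exact this
      rw [bv_mem_idealOf, hcoe] at h1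
      have h3 : g⁻¹ (g s) = s := g.symm_apply_apply s
      rw [← h3]
      exact h1
    intro x hx
    rw [ValuationSubring.mem_pointwise_smul_iff_inv_smul_mem] at hx
    have h4 := h2 hx
    rw [ValuationSubring.mem_pointwise_smul_iff_inv_smul_mem, inv_inv, smul_inv_smul] at h4
    exact h4

end BVMain

end Fermat.Agent.S19.HFour227.Br
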