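-- S19 project, package Alg/HFour (helper227): verbatim copy of Fermat/Agent/S55/Bridge/UnramB.lean
-- (merged CFT-P6 wave 1 on origin/helper53, commit 5bce6be8c), with the namespace renamed to
-- Fermat.Agent.S19.HFour227.Br so that the S19 tree does not depend on the S55 tree.
/-
S55 / CFT, package P6 BRIDGE, file BU-B (unramified local extensions, hard direction).
STATEMENTS ARE FROZEN (interface).

Math.  `E ≤ E'` finite extensions of `ℚ_q` inside `PadicAlgCl q`, `I = localInertia q`.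
Claim: if `I ∩ Gal(·/E)` fixes `E'` then `E'` and `E` have the same value group.
Proof given here (by helper2153; it avoids residue fields and ramification indices):
(1) every `x` of norm one is congruent to a root of unity of order prime to `q` (compactness of
    the unit ball of `ℚ_q(x)` gives `‖x^j - x^i‖ < 1`, then the freshman's dream removes the
    `q`-part of `j - i`, then `X^M - 1` splits);
(2) hence an automorphism fixing all roots of unity of order prime to `q` lies in the inertia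
    group, and by infinite Galois theory `E' ⊆ E(μ')`, so every `x ∈ E'` lies in `E(ω)` for a
    single root of unity `ω` of order `m` prime to `q`;
(3) the conjugates of `ω` over `E` are pairwise incongruent roots of unity, so Lagrange
    interpolation shows that `1, ω, ω², …` is an orthonormal family over `E`:
    `‖∑ cᵢ ωⁱ‖ = max ‖cᵢ‖`.
-/
import Fermat.Agent.S19.HFour227.Br.Defs

set_option autoImplicit false
set_option linter.style.haveILetI false
set_option linter.unusedVariables false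

namespace Fermat.Agent.S19.HFour227.Br

open Polynomial IntermediateField

variable (q : ℕ) [Fact q.Prime]

/-! ### Ultrametric basics -/

theorem bub_norm_sum_le {ι : Type*} (s : Finset ι) (f : ι → PadicAlgCl q) (C : ℝ) (hC : 0 ≤ C)
    (h : ∀ i ∈ s, ‖f i‖ ≤ C) : ‖∑ i ∈ s, f i‖ ≤ C :=
  IsUltrametricDist.norm_sum_le_of_forall_le_of_nonneg hC h

theorem bub_norm_sub_le (x y : PadicAlgCl q) : ‖x - y‖ ≤ max ‖x‖ ‖y‖ := by
  rw [sub_eq_add_neg, ← norm_neg y]
  exact PadicAlgCl.isNonarchimedean q _ _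

theorem bub_norm_algEquiv (τ : Gq q) (y : PadicAlgCl q) : ‖τ y‖ = ‖y‖ :=
  congrArg NNReal.toReal (nnnorm_padicAlgCl_algEquiv q τ y)

theorem bub_norm_natCast (m : ℕ) (hm : ¬ q ∣ m) : ‖(m : PadicAlgCl q)‖ = 1 := by
  have h1 : algebraMap ℚ_[q] (PadicAlgCl q) (m : ℚ_[q]) = (m : PadicAlgCl q) :=
    map_natCast (algebraMap ℚ_[q] (PadicAlgCl q)) m
  rw [← h1, PadicAlgCl.norm_extends, Padic.norm_natCast_eq_one_iff]
  exact (Nat.Prime.coprime_iff_not_dvd Fact.out).mpr hm

theorem bub_norm_q_lt_one : ‖(q : PadicAlgCl q)‖ < 1 := by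
  have h1 : algebraMap ℚ_[q] (PadicAlgCl q) (q : ℚ_[q]) = (q : PadicAlgCl q) :=
    map_natCast (algebraMap ℚ_[q] (PadicAlgCl q)) q
  rw [← h1, PadicAlgCl.norm_extends]
  exact Padic.norm_p_lt_one

theorem bub_norm_eq_one_of_pow_eq_one {η : PadicAlgCl q} {m : ℕ} (hm : m ≠ 0) (hη : η ^ m = 1) :
    ‖η‖ = 1 := by
  have h := congrArg norm hη
  rw [norm_pow, norm_one] at h
  exact (pow_eq_one_iff_of_nonneg (norm_nonneg η) hm).mp h

theorem bub_norm_geom_sum_le {η : PadicAlgCl q} (hη : ‖η‖ ≤ 1) (n : ℕ) :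
    ‖∑ i ∈ Finset.range n, η ^ i‖ ≤ 1 :=
  bub_norm_sum_le q _ _ 1 zero_le_one
    (fun i _ => by rw [norm_pow]; exact pow_le_one₀ (norm_nonneg _) hη)

theorem bub_norm_pow_sub_one_le {η : PadicAlgCl q} (hη : ‖η‖ ≤ 1) (n : ℕ) :
    ‖η ^ n - 1‖ ≤ ‖η - 1‖ := by
  rw [← geom_sum_mul, norm_mul]
  exact mul_le_of_le_one_left (norm_nonneg _) (bub_norm_geom_sum_le q hη n)

/-- a nontrivial root of unity of order prime to `q` is not congruent to one -/
theorem bub_norm_sub_one_of_pow_eq_one {η : PadicAlgCl q} {m : ℕ} (hm : ¬ q ∣ m)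
    (hη : η ^ m = 1) (hη1 : η ≠ 1) : ‖η - 1‖ = 1 := by
  have hm0 : m ≠ 0 := fun h => hm (h ▸ dvd_zero q)
  have hn1 := bub_norm_eq_one_of_pow_eq_one q hm0 hη
  apply le_antisymm
  · calc ‖η - 1‖ ≤ max ‖η‖ ‖(1 : PadicAlgCl q)‖ := bub_norm_sub_le q _ _
      _ = 1 := by rw [hn1, norm_one, max_self]
  · have hsum : ∑ i ∈ Finset.range m, η ^ i = 0 := by
      have := geom_sum_mul η m
      rw [hη, sub_self] at this
      exact (mul_eq_zero.mp this).resolve_right (sub_ne_zero.mpr hη1)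
    have hm' : (m : PadicAlgCl q) = - ∑ i ∈ Finset.range m, (η ^ i - 1) := by
      rw [Finset.sum_sub_distrib, hsum]
      simp
    have := bub_norm_natCast q m hm
    rw [hm', norm_neg] at this
    rw [← this]
    exact bub_norm_sum_le q _ _ _ (norm_nonneg _)
      (fun i _ => bub_norm_pow_sub_one_le q hn1.le i)

/-- distinct roots of unity of order prime to `q` are incongruent -/
theorem bub_norm_sub_of_pow_eq_one {η ζ : PadicAlgCl q} {m : ℕ} (hm : ¬ q ∣ m)
    (hη : η ^ m = 1) (hζ : ζ ^ m = 1) (hne : η ≠ ζ) : ‖η - ζ‖ = 1 := by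
  have hm0 : m ≠ 0 := fun h => hm (h ▸ dvd_zero q)
  have hζ0 : ζ ≠ 0 := by
    rintro rfl
    rw [zero_pow hm0] at hζ
    exact zero_ne_one hζ
  have h1 : η - ζ = ζ * (η / ζ - 1) := by field_simp
  rw [h1, norm_mul, bub_norm_eq_one_of_pow_eq_one q hm0 hζ, one_mul]
  apply bub_norm_sub_one_of_pow_eq_one q hm
  · rw [div_pow, hη, hζ, div_one]
  · intro h
    apply hne
    rwa [div_eq_one_iff_eq hζ0] at h

/-! ### Polynomials with integral coefficients and Lagrange interpolation -/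

/-- all coefficients have norm at most one -/
def bub_IsInt (p : (PadicAlgCl q)[X]) : Prop := ∀ i, ‖p.coeff i‖ ≤ 1

theorem bub_isInt_mul {p r : (PadicAlgCl q)[X]} (hp : bub_IsInt q p) (hr : bub_IsInt q r) :
    bub_IsInt q (p * r) := by
  intro n
  rw [coeff_mul]
  refine bub_norm_sum_le q _ _ 1 zero_le_one (fun ij _ => ?_)
  rw [norm_mul]
  exact mul_le_one₀ (hp _) (norm_nonneg _) (hr _)

theorem bub_isInt_one : bub_IsInt q 1 := by
  intro n
  rw [coeff_one]
  split_ifs <;> simp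

theorem bub_isInt_C {c : PadicAlgCl q} (hc : ‖c‖ ≤ 1) : bub_IsInt q (C c) := by
  intro n
  rw [coeff_C]
  split_ifs
  · exact hc
  · simp

theorem bub_isInt_X_sub_C {c : PadicAlgCl q} (hc : ‖c‖ ≤ 1) : bub_IsInt q (X - C c) := by
  intro n
  rw [coeff_sub]
  refine le_trans (bub_norm_sub_le q _ _) (max_le ?_ (bub_isInt_C q hc n))
  rw [coeff_X]
  split_ifs <;> simp

theorem bub_isInt_prod {ι : Type*} (s : Finset ι) (f : ι → (PadicAlgCl q)[X])
    (h : ∀ i ∈ s, bub_IsInt q (f i)) : bub_IsInt q (∏ i ∈ s, f i) :=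
  Finset.prod_induction f (bub_IsInt q) (fun _ _ => bub_isInt_mul q) (bub_isInt_one q) h

/-- A polynomial of degree `< #s` which is small on a set `s` of pairwise incongruent integral
nodes has small coefficients. -/
theorem bub_coeff_le_of_eval_le (s : Finset (PadicAlgCl q)) (hs1 : ∀ a ∈ s, ‖a‖ ≤ 1)
    (hs2 : ∀ a ∈ s, ∀ b ∈ s, a ≠ b → ‖a - b‖ = 1) (P : (PadicAlgCl q)[X])
    (hdeg : P.degree < s.card) (B : ℝ) (hB : 0 ≤ B) (hP : ∀ a ∈ s, ‖P.eval a‖ ≤ B) (i : ℕ) :
    ‖P.coeff i‖ ≤ B := by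
  classical
  have hinterp := Lagrange.eq_interpolate (s := s) (v := id) (f := P) (Set.injOn_id _) hdeg
  have hc : P.coeff i = (Lagrange.interpolate s id (fun a => P.eval (id a))).coeff i := by
    rw [← hinterp]
  rw [hc, Lagrange.interpolate_apply, finsetSum_coeff]
  refine bub_norm_sum_le q _ _ B hB (fun a ha => ?_)
  rw [coeff_C_mul, norm_mul]
  have hbasis : bub_IsInt q (Lagrange.basis s id a) := by
    unfold Lagrange.basis
    refine bub_isInt_prod q _ _ (fun b hb => ?_)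
    have hb' := Finset.mem_erase.mp hb
    unfold Lagrange.basisDivisor
    refine bub_isInt_mul q (bub_isInt_C q ?_) (bub_isInt_X_sub_C q (hs1 b hb'.2))
    rw [norm_inv]
    show ‖a - b‖⁻¹ ≤ 1
    rw [hs2 a ha b hb'.2 (Ne.symm hb'.1), inv_one]
  calc ‖eval (id a) P‖ * ‖(Lagrange.basis s id a).coeff i‖ ≤ B * 1 :=
        mul_le_mul (hP a ha) (hbasis i) (norm_nonneg _) hB
    _ = B := mul_one B

/-! ### Adjoining a root of unity of order prime to `q` does not enlarge the value group -/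

theorem bub_norm_adjoin_root_of_unity (E : IntermediateField ℚ_[q] (PadicAlgCl q))
    (ζ : PadicAlgCl q) (m : ℕ) (hm : ¬ q ∣ m) (hζ : ζ ^ m = 1) (x : PadicAlgCl q)
    (hx : x ∈ IntermediateField.adjoin E {ζ}) (hx0 : x ≠ 0) : ∃ y ∈ E, ‖x‖ = ‖y‖ := by
  classical
  have hm0 : m ≠ 0 := fun h0 => hm (h0 ▸ dvd_zero q)
  have hint : IsIntegral E ζ :=
    IsIntegral.of_pow (Nat.pos_of_ne_zero hm0) (by rw [hζ]; exact isIntegral_one)
  set f := minpoly E ζ with hf
  have hfmonic : f.Monic := minpoly.monic hint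
  have hfirr : Irreducible f := minpoly.irreducible hint
  have hfdvd : f ∣ X ^ m - 1 := minpoly.dvd E ζ (by simp [hζ])
  have hx' : x ∈ (IntermediateField.adjoin E {ζ}).toSubalgebra := hx
  rw [IntermediateField.adjoin_simple_toSubalgebra_of_isAlgebraic hint.isAlgebraic,
    Algebra.adjoin_singleton_eq_range_aeval] at hx'
  obtain ⟨p, rfl⟩ := hx'
  set p₁ := p %ₘ f with hp₁
  have hp₁x : aeval ζ p₁ = aeval ζ p := aeval_modByMonic_eq_self_of_root (minpoly.aeval E ζ)
  have hp₁deg : p₁.degree < f.degree := degree_modByMonic_lt p hfmonic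
  set P : (PadicAlgCl q)[X] := p₁.map (algebraMap E (PadicAlgCl q)) with hP
  have hfsep : f.Separable := hfirr.separable
  have hfsplit : (f.map (algebraMap E (PadicAlgCl q))).Splits := IsAlgClosed.splits _
  let s : Finset (PadicAlgCl q) := (f.rootSet (PadicAlgCl q)).toFinset
  have hscard : s.card = f.natDegree := by
    rw [Set.toFinset_card]
    exact card_rootSet_eq_natDegree hfsep hfsplit
  have hsroot : ∀ a ∈ s, aeval a f = 0 := fun a ha =>
    (mem_rootSet.mp (Set.mem_toFinset.mp ha)).2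
  have hspow : ∀ a ∈ s, a ^ m = 1 := by
    intro a ha
    obtain ⟨g, hg⟩ := hfdvd
    have := congrArg (aeval a) hg
    rw [map_mul, hsroot a ha, zero_mul] at this
    have h2 : a ^ m - 1 = 0 := by simpa using this
    exact sub_eq_zero.mp h2
  have hs1 : ∀ a ∈ s, ‖a‖ ≤ 1 := fun a ha =>
    (bub_norm_eq_one_of_pow_eq_one q hm0 (hspow a ha)).le
  have hs2 : ∀ a ∈ s, ∀ b ∈ s, a ≠ b → ‖a - b‖ = 1 := fun a ha b hb hab =>
    bub_norm_sub_of_pow_eq_one q hm (hspow a ha) (hspow b hb) hab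
  have hPdeg : P.degree < s.card := by
    rw [hscard, hP, degree_map]
    calc p₁.degree < f.degree := hp₁deg
      _ = f.natDegree := degree_eq_natDegree hfmonic.ne_zero
  haveI : Normal ℚ_[q] (PadicAlgCl q) := IsAlgClosure.normal ℚ_[q] (PadicAlgCl q)
  haveI : Normal E (PadicAlgCl q) := Normal.tower_top_of_normal ℚ_[q] E (PadicAlgCl q)
  have heval : ∀ a ∈ s, ‖P.eval a‖ = ‖aeval ζ p‖ := by
    intro a ha
    obtain ⟨σ, hσ⟩ := minpoly.exists_algEquiv_of_root' hint.isAlgebraic (hsroot a ha)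
    have h1 : P.eval a = σ (aeval ζ p₁) := by
      rw [hP, eval_map_algebraMap, ← hσ, aeval_algHom_apply]
    rw [h1, hp₁x]
    exact bub_norm_algEquiv q (σ.restrictScalars ℚ_[q]) _
  have hcoeff : ∀ i, ‖P.coeff i‖ ≤ ‖aeval ζ p‖ := fun i =>
    bub_coeff_le_of_eval_le q s hs1 hs2 P hPdeg _ (norm_nonneg _)
      (fun a ha => (heval a ha).le) i
  have hζn : ‖ζ‖ = 1 := bub_norm_eq_one_of_pow_eq_one q hm0 hζ
  have hsum : aeval ζ p = ∑ i ∈ Finset.range (p₁.natDegree + 1), P.coeff i * ζ ^ i := by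
    rw [← hp₁x, aeval_eq_sum_range]
    refine Finset.sum_congr rfl fun i _ => ?_
    rw [hP, coeff_map, Algebra.smul_def]
  obtain ⟨i, -, hi⟩ := IsUltrametricDist.exists_norm_finsetSum_le_of_nonempty
    (Finset.nonempty_range_add_one (n := p₁.natDegree)) (fun i => P.coeff i * ζ ^ i)
  rw [← hsum, norm_mul, norm_pow, hζn, one_pow, mul_one] at hi
  refine ⟨P.coeff i, ?_, le_antisymm hi (hcoeff i)⟩
  rw [hP, coeff_map]
  exact (p₁.coeff i).2

/-! ### Units are congruent to roots of unity of order prime to `q` -/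

/-- a monic rational polynomial which is small at `α` has a root close to `α` -/
theorem bub_exists_root_close (g : ℚ[X]) (hg : g.Monic) (α : PadicAlgCl q) (δ : ℝ) (hδ : 0 < δ)
    (h : ‖aeval α g‖ < δ ^ g.natDegree) :
    ∃ β : PadicAlgCl q, aeval β g = 0 ∧ ‖α - β‖ < δ := by
  by_contra hcon
  push Not at hcon
  have hsplit : (g.map (algebraMap ℚ (PadicAlgCl q))).Splits := IsAlgClosed.splits _
  have hprod := hsplit.aeval_eq_prod_aroots_of_monic hg α
  have hcard : (g.aroots (PadicAlgCl q)).card = g.natDegree := by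
    rw [aroots, ← natDegree_map (algebraMap ℚ (PadicAlgCl q))]
    exact splits_iff_card_roots.mp hsplit
  have h1 : ‖aeval α g‖₊ = ((g.aroots (PadicAlgCl q)).map (fun β => ‖α - β‖₊)).prod := by
    rw [hprod]
    have := map_multiset_prod (nnnormHom : PadicAlgCl q →*₀ NNReal)
      ((g.aroots (PadicAlgCl q)).map (α - ·))
    rw [Multiset.map_map] at this
    exact this
  have h2 : (⟨δ, hδ.le⟩ : NNReal) ^ (g.aroots (PadicAlgCl q)).card ≤
      ((g.aroots (PadicAlgCl q)).map (fun β => ‖α - β‖₊)).prod := by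
    have := Multiset.pow_card_le_prod (s := (g.aroots (PadicAlgCl q)).map (fun β => ‖α - β‖₊))
      (a := (⟨δ, hδ.le⟩ : NNReal)) (by
        intro x hx
        obtain ⟨β, hβ, rfl⟩ := Multiset.mem_map.mp hx
        have hβ0 : aeval β g = 0 := (mem_aroots.mp hβ).2
        exact_mod_cast hcon β hβ0)
    rwa [Multiset.card_map] at this
  rw [← h1, hcard] at h2
  have h3 : δ ^ g.natDegree ≤ ‖aeval α g‖ := by exact_mod_cast h2
  exact absurd h (not_lt.mpr h3)

/-- compactness of the unit ball of `ℚ_q(x)`: two powers of a unit are congruent -/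
theorem bub_exists_pow_close (x : PadicAlgCl q) (hx : ‖x‖ = 1) :
    ∃ i j : ℕ, i < j ∧ ‖x ^ j - x ^ i‖ < 1 := by
  have hint : IsIntegral ℚ_[q] x := Algebra.IsIntegral.isIntegral x
  let F : IntermediateField ℚ_[q] (PadicAlgCl q) := ℚ_[q]⟮x⟯
  haveI hFfin : FiniteDimensional ℚ_[q] F := IntermediateField.adjoin.finiteDimensional hint
  let W : Submodule ℚ_[q] (PadicAlgCl q) := F.toSubalgebra.toSubmodule
  haveI : FiniteDimensional ℚ_[q] W := hFfin
  haveI : ProperSpace W := FiniteDimensional.proper ℚ_[q] W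
  have hcomp : IsCompact (Metric.closedBall (0 : W) 1) := isCompact_closedBall 0 1
  obtain ⟨t, -, htfin, hcover⟩ := hcomp.finite_cover_balls (e := 1) one_pos
  have hmem : ∀ n : ℕ, x ^ n ∈ W := fun n => by
    show x ^ n ∈ F
    exact pow_mem (IntermediateField.mem_adjoin_simple_self ℚ_[q] x) n
  let seq : ℕ → W := fun n => ⟨x ^ n, hmem n⟩
  have hseq : ∀ n, seq n ∈ Metric.closedBall (0 : W) 1 := by
    intro n
    rw [mem_closedBall_zero_iff]
    show ‖x ^ n‖ ≤ 1
    rw [norm_pow, hx, one_pow]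
  have hex : ∀ n, ∃ c, c ∈ t ∧ seq n ∈ Metric.ball c 1 := by
    intro n
    have := hcover (hseq n)
    simp only [Set.mem_iUnion, exists_prop] at this
    exact this
  choose c hct hc using hex
  haveI : Finite t := htfin.to_subtype
  obtain ⟨i, j, hij, hcij⟩ := Finite.exists_ne_map_eq_of_infinite (fun n => (⟨c n, hct n⟩ : t))
  have hcij' : c i = c j := congrArg Subtype.val hcij
  have key : ‖x ^ j - x ^ i‖ < 1 := by
    have h1 := hc i
    have h2 := hc j
    rw [Metric.mem_ball, dist_eq_norm] at h1 h2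
    rw [hcij'] at h1
    have h1' : ‖x ^ i - (c j : PadicAlgCl q)‖ < 1 := h1
    have h2' : ‖x ^ j - (c j : PadicAlgCl q)‖ < 1 := h2
    have : x ^ j - x ^ i = (x ^ j - c j) - (x ^ i - c j) := by ring
    rw [this]
    exact lt_of_le_of_lt (bub_norm_sub_le q _ _) (max_lt h2' h1')
  rcases lt_or_gt_of_ne hij with h | h
  · exact ⟨i, j, h, key⟩
  · exact ⟨j, i, h, by rw [← norm_neg, neg_sub]; exact key⟩

/-- freshman's dream: `y ^ (q ^ a) ≡ 1` implies `y ≡ 1` -/
theorem bub_norm_sub_one_lt_of_pow (y : PadicAlgCl q) (hy : ‖y‖ ≤ 1) (a : ℕ)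
    (h : ‖y ^ (q ^ a) - 1‖ < 1) : ‖y - 1‖ < 1 := by
  by_contra hcon
  have hu1 : ‖y - 1‖ ≤ 1 := le_trans (bub_norm_sub_le q _ _) (max_le hy (by rw [norm_one]))
  have hu : ‖y - 1‖ = 1 := le_antisymm hu1 (not_lt.mp hcon)
  have huO : y - 1 ∈ padicIntegers q := (mem_padicIntegers_iff q).mpr (by exact_mod_cast hu1)
  obtain ⟨r, hr⟩ := exists_add_pow_prime_pow_eq (Fact.out : q.Prime)
    (⟨y - 1, huO⟩ : padicIntegers q) (1 : padicIntegers q) a
  have hr1 : ‖(r : PadicAlgCl q)‖ ≤ 1 := by exact_mod_cast (mem_padicIntegers_iff q).mp r.2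
  have hr' := congrArg (Subtype.val : padicIntegers q → PadicAlgCl q) hr
  have hr'' : y ^ (q ^ a) = (y - 1) ^ (q ^ a) + 1 + q * (y - 1) * (r : PadicAlgCl q) := by
    simpa using hr'
  have h3 : (y - 1) ^ (q ^ a) = (y ^ (q ^ a) - 1) - q * (y - 1) * r := by
    rw [hr'']; ring
  have h4 : ‖(y - 1) ^ (q ^ a)‖ < 1 := by
    rw [h3]
    refine lt_of_le_of_lt (bub_norm_sub_le q _ _) (max_lt h ?_)
    rw [norm_mul, norm_mul, hu, mul_one]
    calc ‖(q : PadicAlgCl q)‖ * ‖(r : PadicAlgCl q)‖ ≤ ‖(q : PadicAlgCl q)‖ * 1 :=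
          mul_le_mul_of_nonneg_left hr1 (norm_nonneg _)
      _ < 1 := by rw [mul_one]; exact bub_norm_q_lt_one q
  rw [norm_pow, hu, one_pow] at h4
  exact lt_irrefl _ h4

/-- every unit of `PadicAlgCl q` is congruent to a root of unity of order prime to `q` -/
theorem bub_exists_root_of_unity_close (x : PadicAlgCl q) (hx : ‖x‖ = 1) :
    ∃ (ζ : PadicAlgCl q) (M : ℕ), ¬ q ∣ M ∧ ζ ^ M = 1 ∧ ‖x - ζ‖ < 1 := by
  obtain ⟨i, j, hij, h⟩ := bub_exists_pow_close q x hx
  have hN : ‖x ^ (j - i) - 1‖ < 1 := by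
    have : x ^ j - x ^ i = x ^ i * (x ^ (j - i) - 1) := by
      rw [mul_sub, mul_one, ← pow_add, Nat.add_sub_cancel' hij.le]
    rw [this, norm_mul, norm_pow, hx, one_pow, one_mul] at h
    exact h
  have hN0 : j - i ≠ 0 := Nat.sub_ne_zero_of_lt hij
  obtain ⟨a, M, hM, hNM⟩ := Nat.exists_eq_pow_mul_and_not_dvd hN0 q (Fact.out : q.Prime).ne_one
  have hy : ‖(x ^ M) ^ (q ^ a) - 1‖ < 1 := by
    rw [← pow_mul, mul_comm, ← hNM]
    exact hN
  have hM1 : ‖x ^ M - 1‖ < 1 :=
    bub_norm_sub_one_lt_of_pow q (x ^ M) (by rw [norm_pow, hx, one_pow]) a hy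
  have hM0 : M ≠ 0 := fun h0 => hM (h0 ▸ dvd_zero q)
  obtain ⟨β, hβ, hxβ⟩ := bub_exists_root_close q (X ^ M - C 1) (monic_X_pow_sub_C 1 hM0) x 1
    one_pos (by rw [one_pow]; simpa using hM1)
  refine ⟨β, M, hM, ?_, hxβ⟩
  have : β ^ M - 1 = 0 := by simpa using hβ
  exact sub_eq_zero.mp this

/-- an automorphism fixing the roots of unity of order prime to `q` lies in the inertia group -/
theorem bub_mem_localInertia_of_fix (τ : Gq q)
    (hτ : ∀ (ζ : PadicAlgCl q) (M : ℕ), ¬ q ∣ M → ζ ^ M = 1 → τ ζ = ζ) :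
    τ ∈ localInertia q := by
  rw [mem_localInertia_iff]
  intro x hx
  rcases lt_or_eq_of_le hx with h | h
  · refine lt_of_le_of_lt (bub_norm_sub_le q _ _) (max_lt ?_ h)
    rw [bub_norm_algEquiv]
    exact h
  · obtain ⟨ζ, M, hM, hζ, hxζ⟩ := bub_exists_root_of_unity_close q x h
    have : τ x - x = τ (x - ζ) - (x - ζ) := by
      rw [map_sub, hτ ζ M hM hζ]; ring
    rw [this]
    refine lt_of_le_of_lt (bub_norm_sub_le q _ _) (max_lt ?_ hxζ)
    rw [bub_norm_algEquiv]
    exact hxζ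

/-! ### Reduction to a single root of unity -/

/-- the roots of unity of order prime to `q` -/
def bub_mu : Set (PadicAlgCl q) := {ζ | ∃ M : ℕ, ¬ q ∣ M ∧ ζ ^ M = 1}

theorem bub_le_adjoin_mu (E E' : IntermediateField ℚ_[q] (PadicAlgCl q))
    (h : localInertia q ⊓ E.fixingSubgroup ≤ E'.fixingSubgroup) :
    E' ≤ IntermediateField.adjoin ℚ_[q] ((E : Set (PadicAlgCl q)) ∪ bub_mu q) := by
  set L := IntermediateField.adjoin ℚ_[q] ((E : Set (PadicAlgCl q)) ∪ bub_mu q) with hL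
  have h1 : L.fixingSubgroup ≤ E'.fixingSubgroup := by
    intro τ hτ
    apply h
    refine ⟨bub_mem_localInertia_of_fix q τ ?_, ?_⟩
    · intro ζ M hM hζ
      exact (IntermediateField.mem_fixingSubgroup_iff L τ).mp hτ ζ
        (subset_adjoin _ _ (Or.inr ⟨M, hM, hζ⟩))
    · show τ ∈ E.fixingSubgroup
      rw [IntermediateField.mem_fixingSubgroup_iff]
      intro x hx
      exact (IntermediateField.mem_fixingSubgroup_iff L τ).mp hτ x
        (subset_adjoin _ _ (Or.inl hx))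
  haveI : Normal ℚ_[q] (PadicAlgCl q) := IsAlgClosure.normal ℚ_[q] (PadicAlgCl q)
  haveI : IsGalois ℚ_[q] (PadicAlgCl q) := ⟨⟩
  intro x hx
  rw [← InfiniteGalois.fixedField_fixingSubgroup L, IntermediateField.mem_fixedField_iff]
  intro τ hτ
  exact (IntermediateField.mem_fixingSubgroup_iff E' τ).mp (h1 hτ) x hx

theorem bub_exists_common_order (T : Finset (PadicAlgCl q)) :
    ∃ M : ℕ, ¬ q ∣ M ∧ ∀ t ∈ T, t ∈ bub_mu q → t ^ M = 1 := by
  classical
  refine Finset.induction_on T ?_ ?_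
  · exact ⟨1, (Fact.out : q.Prime).one_lt.ne' ∘ Nat.dvd_one.mp, by simp⟩
  · intro a s _ ih
    obtain ⟨M, hM, hs⟩ := ih
    by_cases hamu : a ∈ bub_mu q
    · obtain ⟨Ma, hMa, hapow⟩ := hamu
      refine ⟨M * Ma, fun hdvd => ?_, ?_⟩
      · rcases (Nat.Prime.dvd_mul Fact.out).mp hdvd with h | h
        exacts [hM h, hMa h]
      · intro t ht htmu
        rcases Finset.mem_insert.mp ht with rfl | ht'
        · rw [mul_comm, pow_mul, hapow, one_pow]
        · rw [pow_mul, hs t ht' htmu, one_pow]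
    · refine ⟨M, hM, ?_⟩
      intro t ht htmu
      rcases Finset.mem_insert.mp ht with rfl | ht'
      · exact absurd htmu hamu
      · exact hs t ht' htmu

theorem bub_mem_adjoin_single (E : IntermediateField ℚ_[q] (PadicAlgCl q)) (x : PadicAlgCl q)
    (hx : x ∈ IntermediateField.adjoin ℚ_[q] ((E : Set (PadicAlgCl q)) ∪ bub_mu q)) :
    ∃ (ω : PadicAlgCl q) (M : ℕ), ¬ q ∣ M ∧ ω ^ M = 1 ∧ x ∈ IntermediateField.adjoin E {ω} := by
  obtain ⟨T, hT, hxT⟩ := exists_finset_of_mem_adjoin hx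
  obtain ⟨M, hM, hMT⟩ := bub_exists_common_order q T
  have hM0 : M ≠ 0 := fun h0 => hM (h0 ▸ dvd_zero q)
  haveI : NeZero M := ⟨hM0⟩
  haveI : NeZero (M : PadicAlgCl q) := ⟨Nat.cast_ne_zero.mpr hM0⟩
  obtain ⟨ω, hω⟩ := HasEnoughRootsOfUnity.exists_primitiveRoot (PadicAlgCl q) M
  refine ⟨ω, M, hM, hω.pow_eq_one, ?_⟩
  have hle : IntermediateField.adjoin ℚ_[q] (T : Set (PadicAlgCl q)) ≤
      (IntermediateField.adjoin E {ω}).restrictScalars ℚ_[q] := by
    rw [adjoin_le_iff]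
    intro t ht
    show t ∈ IntermediateField.adjoin E {ω}
    rcases hT ht with htE | htmu
    · exact (IntermediateField.adjoin E {ω}).algebraMap_mem ⟨t, htE⟩
    · obtain ⟨i, -, rfl⟩ := hω.eq_pow_of_pow_eq_one (hMT t ht htmu)
      exact pow_mem (mem_adjoin_simple_self E ω) i
  exact hle hxT

/-! ### The frozen statements -/

/-- BU-B1. If inertia acts trivially then the value group does not grow. -/
theorem norm_of_inertia_inf_fixingSubgroup_le (E E' : IntermediateField ℚ_[q] (PadicAlgCl q))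
    [FiniteDimensional ℚ_[q] E'] (hEE' : E ≤ E')
    (h : localInertia q ⊓ E.fixingSubgroup ≤ E'.fixingSubgroup) :
    ∀ x ∈ E', x ≠ 0 → ∃ y ∈ E, ‖x‖ = ‖y‖ := by
  intro x hx hx0
  have h1 := bub_le_adjoin_mu q E E' h hx
  obtain ⟨ω, M, hM, hω, hxω⟩ := bub_mem_adjoin_single q E x h1
  exact bub_norm_adjoin_root_of_unity q E ω M hM hω x hxω hx0

/-- BU-B2. Absolute version. -/
theorem isUnramifiedLocal_of_localInertia_le_fixingSubgroup
    (E : IntermediateField ℚ_[q] (PadicAlgCl q)) [FiniteDimensional ℚ_[q] E]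
    (h : localInertia q ≤ E.fixingSubgroup) : IsUnramifiedLocal q E := by
  intro x hx hx0
  obtain ⟨y, hy, hxy⟩ := norm_of_inertia_inf_fixingSubgroup_le q ⊥ E bot_le
    (inf_le_left.trans h) x hx hx0
  obtain ⟨a, rfl⟩ := IntermediateField.mem_bot.mp hy
  have ha0 : a ≠ 0 := by
    rintro rfl
    rw [map_zero, norm_zero, norm_eq_zero] at hxy
    exact hx0 hxy
  refine ⟨-a.valuation, ?_⟩
  rw [hxy, PadicAlgCl.norm_extends, Padic.norm_eq_zpow_neg_valuation ha0]

end Fermat.Agent.S19.HFour227.Br
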